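/-
Mazur's principle at `3`: the order of `Δ (d τ) / Δ (τ)` at the cusps of `X₀(N)`, `d ∣ N`.
-/
import Fermat.Agent.Ribet.MPCubeUnit

set_option autoImplicit false
set_option linter.style.haveILetI false

noncomputable section

open UpperHalfPlane hiding I
open Fermat.Agent.Places (cuspWidth)
open CongruenceSubgroup ModularCurve AlgebraicCurve
open Fermat.Agent.ModFun Fermat.Agent.MazurPrinciple
open scoped MatrixGroups ModularForm

namespace Fermat.Agent.MazurPrinciple2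

local notation "ℚbar" => AlgebraicClosure ℚ

/-- `Δ (d γ τ)` as the weight twelve translate of `Δ` at `(a τ + b) / e`, with
`a = gcd (d, γ₁₀)`. -/
theorem exists_translate_gcd (d : ℕ) [NeZero d] (γ : SL(2, ℤ)) :
    ∃ (a b e : ℕ) (_ : NeZero a) (_ : NeZero e), a * e = d ∧ a = Nat.gcd d (γ 1 0).natAbs ∧
      ∀ τ : ℍ, unitFun d (γ • τ) =
        ((e : ℂ) ^ (12 : ℤ))⁻¹ * ModularForm.discriminant (triPoint a b e τ) /
          ModularForm.discriminant τ := by
  obtain ⟨⟨a, b⟩, ht, g₀, hg₀⟩ := Fermat.Agent.Gamma0.exists_reduction (N := d) γ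
  obtain ⟨had, hb, hg⟩ := Fermat.Agent.Gamma0.mem_heckePairs.1 ht
  have hae : a * (d / a) = d := Nat.mul_div_cancel' had
  haveI : NeZero a := ⟨left_ne_zero_of_mul (hae.symm ▸ NeZero.ne d)⟩
  simp only [Fermat.Agent.Gamma0.heckeMat] at hg₀
  generalize hE : d / a = e at hb hg hae hg₀
  haveI : NeZero e := ⟨right_ne_zero_of_mul (hae.symm ▸ NeZero.ne d)⟩
  have i00 := congrArg (fun M : Matrix (Fin 2) (Fin 2) ℤ => M 0 0) hg₀
  have i01 := congrArg (fun M : Matrix (Fin 2) (Fin 2) ℤ => M 0 1) hg₀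
  have i10 := congrArg (fun M : Matrix (Fin 2) (Fin 2) ℤ => M 1 0) hg₀
  have i11 := congrArg (fun M : Matrix (Fin 2) (Fin 2) ℤ => M 1 1) hg₀
  simp [Fermat.Agent.Gamma0.levelMat, Matrix.mul_apply, Fin.sum_univ_two] at i00 i01 i10 i11
  refine ⟨a, b, e, ‹_›, ‹_›, hae, ?_, fun τ => ?_⟩
  · have hdet : ∀ g : SL(2, ℤ), g 0 0 * g 1 1 - g 0 1 * g 1 0 = 1 := fun g => by
      have := g.2
      rwa [Matrix.det_fin_two] at this
    refine Nat.dvd_antisymm (Nat.dvd_gcd had (Int.natCast_dvd.1 ⟨g₀ 1 0, by linarith [i10]⟩)) ?_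
    set g := Nat.gcd d (γ 1 0).natAbs
    have hg1 : (g : ℤ) ∣ a * g₀ 1 0 := by
      refine (Int.natCast_dvd.2 (Nat.gcd_dvd_right d _)).trans ⟨1, ?_⟩
      linarith [i10]
    have hg0 : (g : ℤ) ∣ a * g₀ 0 0 := by
      refine ((Int.natCast_dvd_natCast.2 (Nat.gcd_dvd_left d _)).mul_right (γ 0 0)).trans ⟨1, ?_⟩
      linarith [i00]
    have h : (g : ℤ) ∣ a := by
      have h2 := dvd_sub (hg0.mul_right (g₀ 1 1)) (hg1.mul_right (g₀ 0 1))
      rwa [show (a : ℤ) * g₀ 0 0 * g₀ 1 1 - (a : ℤ) * g₀ 1 0 * g₀ 0 1 = (a : ℤ) from by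
        linear_combination (a : ℤ) * hdet g₀] at h2
    exact_mod_cast h
  have e00 : (d : ℂ) * γ 0 0 = (g₀ 0 0 : ℂ) * a := by exact_mod_cast i00
  have e01 : (d : ℂ) * γ 0 1 = (g₀ 0 0 : ℂ) * b + g₀ 0 1 * e := by exact_mod_cast i01
  have e10 : (γ 1 0 : ℂ) = (g₀ 1 0 : ℂ) * a := by exact_mod_cast i10
  have e11 : (γ 1 1 : ℂ) = (g₀ 1 0 : ℂ) * b + g₀ 1 1 * e := by exact_mod_cast i11
  have he : (e : ℂ) ≠ 0 := Nat.cast_ne_zero.2 (NeZero.ne e)
  have key : ModularForm.heckeDiagMatrix d • γ • τ = g₀ • triPoint a b e τ := by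
    apply UpperHalfPlane.ext
    rw [ModularForm.coe_heckeDiagMatrix_smul (NeZero.ne d), coe_specialLinearGroup_apply,
      coe_specialLinearGroup_apply, coe_triPoint]
    simp only [algebraMap_int_eq, eq_intCast, Complex.ofReal_intCast]
    field_simp
    rw [mul_add, ← mul_assoc, e00, e01, e10, e11]
    congr 1 <;> ring
  have hden : ∀ (g : SL(2, ℤ)) (t : ℍ), denom g t = (g 1 0 : ℂ) * t + g 1 1 := by
    intro g t; simp [denom]
  have hdenom : denom γ τ = (e : ℂ) * denom g₀ (triPoint a b e τ) := by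
    rw [hden γ, hden g₀, coe_triPoint, e10, e11]
    field_simp
    ring
  have h0 : denom g₀ (triPoint a b e τ) ^ (12 : ℤ) ≠ 0 := zpow_ne_zero _ (denom_ne_zero _ _)
  have he12 : (e : ℂ) ^ (12 : ℤ) ≠ 0 := zpow_ne_zero _ he
  rw [unitFun, key, Integral.discriminant_SL_smul, Integral.discriminant_SL_smul, hdenom, mul_zpow]
  field_simp [ModularForm.discriminant_ne_zero τ]

variable {N : ℕ} [NeZero N]

local instance finiteIndexGamma0DeltaCusp : (Gamma0 N).FiniteIndex :=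
  ⟨by rw [Places.index_Gamma0]; exact (Gamma0.dedekindPsi_pos N).ne'⟩

variable (ι : ℚbar →+* ℂ)

/-- `Δ (d τ) / Δ` has the expansion of the complexified unit. -/
theorem hasQExp_barToC_deltaUnit (d : ℕ) [NeZero d] (hd : d ∣ N) :
    HasQExp 1 (unitFun d)
      ((barToC N ι (Ribet.MP.deltaUnit N d hd)) : LaurentSeries ℂ) := by
  refine (hasQExp_unitFun d).of_eq ?_
  show _ = coeffMap ι (coeffMap (algebraMap ℚ ℚbar) _)
  rw [coeffMap_coeffMap]
  exact coeffMap_congr (Subsingleton.elim _ _) _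

/-- The order of `Δ (d τ) / Δ` at the cusp of `γ`. -/
theorem exists_ord_deltaUnit_cusp (γ : SL(2, ℤ)) (d : ℕ) [NeZero d] (hd : d ∣ N) :
    ∃ a e : ℕ, a * e = d ∧ a = Nat.gcd d ((γ⁻¹) 1 0).natAbs ∧
      (e : ℤ) * ((Places.x0Model N).cuspPlace γ).ord (barToC N ι (Ribet.MP.deltaUnit N d hd)) =
        (cuspWidth (Gamma0 N) γ : ℤ) * ((a : ℤ) - e) := by
  obtain ⟨a, b, e, _, _, hae, ha, hval⟩ := exists_translate_gcd d γ⁻¹
  refine ⟨a, e, hae, ha, ?_⟩
  set x := barToC N ι (Ribet.MP.deltaUnit N d hd)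
  have hx0 : x ≠ 0 := (map_ne_zero _).2 (Ribet.MP.deltaUnit_ne_zero N d hd)
  set D : LaurentSeries ℂ := coeffMap (algebraMap ℚ ℂ) deltaSeries
  have hD : D ≠ 0 := (map_ne_zero _).2 deltaSeries_ne_zero
  have hDs : deltaSeries.order = 1 := isMonicOfOrder_deltaSeries.1
  have hDord : D.order = 1 := by
    refine le_antisymm (HahnSeries.order_le_of_coeff_ne_zero ?_) ?_
    · rw [coeffMap_coeff, ← hDs, ← HahnSeries.leadingCoeff_eq, isMonicOfOrder_deltaSeries.2,
        map_one]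
      exact one_ne_zero
    · by_contra hc
      push Not at hc
      refine mt HahnSeries.coeff_order_eq_zero.1 hD ?_
      rw [coeffMap_coeff, HahnSeries.coeff_eq_zero_of_lt_order (hDs.symm ▸ hc), map_zero]
  have h1 : HasQExp e (fun τ => unitFun d (γ⁻¹ • τ))
      (HahnSeries.C ((e : ℂ) ^ (12 : ℤ))⁻¹ * qExpand ℂ a (twist (zetaU e ^ b) D) /
        qExpand ℂ e D) := by
    have hnum := (hasQExp_deltaSeries.comp_triPoint a b e).const_mul ((e : ℂ) ^ (12 : ℤ))⁻¹
    have hden := hasQExp_deltaSeries.expand_period e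
    rw [one_mul] at hden
    exact (hnum.div hden).congr (Filter.Eventually.of_forall fun τ => (hval τ).symm)
  have hf : EqPunct (toFun x) (unitFun d) :=
    toFun_eqPunct _ (isModularFun_unitFun hd) (hasQExp_barToC_deltaUnit ι d hd)
  have h2 : HasQExp e (fun τ => (Places.x0Model N).ev x (γ⁻¹ • τ))
      (HahnSeries.C ((e : ℂ) ^ (12 : ℤ))⁻¹ * qExpand ℂ a (twist (zetaU e ^ b) D) /
        qExpand ℂ e D) :=
    h1.congr (Places.eventuallyEq_atImInfty_of_eqPunct h1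
      ((Places.x0Model N).hasQExp_cuspExp γ x) (Places.eqPunct_comp_smul hf γ⁻¹).symm)
  have h3 := (Places.x0Model N).width_mul_order hx0 γ h2
  have hT : twist (zetaU e ^ b) D ≠ 0 := (map_ne_zero _).2 hD
  have hTord : (twist (zetaU e ^ b) D).order = 1 := by
    refine le_antisymm (HahnSeries.order_le_of_coeff_ne_zero ?_) ?_
    · rw [twist_coeff]
      refine mul_ne_zero (zpow_ne_zero _ (Units.ne_zero _)) ?_
      rw [← hDord]
      exact mt HahnSeries.coeff_order_eq_zero.1 hD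
    · by_contra hc
      push Not at hc
      refine mt HahnSeries.coeff_order_eq_zero.1 hT ?_
      rw [twist_coeff, HahnSeries.coeff_eq_zero_of_lt_order (hDord.symm ▸ hc), mul_zero]
  have hC : (HahnSeries.C ((e : ℂ) ^ (12 : ℤ))⁻¹ : LaurentSeries ℂ) ≠ 0 :=
    (map_ne_zero _).2 (inv_ne_zero (zpow_ne_zero _ (Nat.cast_ne_zero.2 (NeZero.ne e))))
  have hA : qExpand ℂ a (twist (zetaU e ^ b) D) ≠ 0 := (map_ne_zero _).2 hT
  have hE : qExpand ℂ e D ≠ 0 := (map_ne_zero _).2 hD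
  have hCord : (HahnSeries.C ((e : ℂ) ^ (12 : ℤ))⁻¹ : LaurentSeries ℂ).order = 0 :=
    HahnSeries.order_single (by simpa using NeZero.ne e)
  have h4 : (HahnSeries.C ((e : ℂ) ^ (12 : ℤ))⁻¹ * qExpand ℂ a (twist (zetaU e ^ b) D) /
      qExpand ℂ e D).order = (a : ℤ) - e := by
    have h := HahnSeries.order_mul (div_ne_zero (mul_ne_zero hC hA) hE) hE
    rw [div_mul_cancel₀ _ hE, HahnSeries.order_mul hC hA, hCord,
      Places.order_qExpand a hT, Places.order_qExpand e hD, hTord, hDord] at h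
    linarith
  rw [h4] at h3
  exact h3.symm

/-- For primes `q ≠ r` the data of `d = r q` at a cusp are the products of those of `r` and `q`. -/
theorem gcd_mul_of_prime {r q : ℕ} (hr : r.Prime) (hq : q.Prime) (h : r ≠ q) (c : ℕ) :
    Nat.gcd (r * q) c = Nat.gcd r c * Nat.gcd q c := by
  rw [Nat.gcd_comm (r * q), Nat.Coprime.gcd_mul c ((Nat.coprime_primes hr hq).2 h),
    Nat.gcd_comm c, Nat.gcd_comm c]

end Fermat.Agent.MazurPrinciple2

end
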