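/-
Mazur's principle at `3`: for a prime `r ≡ 8 (mod 9)` dividing `M`, `3` divides the order of the
cube unit of `X₀(3 M)` at every place.
-/
import Fermat.Agent.MazurPrinciple2.DeltaCusp

set_option autoImplicit false
set_option linter.style.haveILetI false

noncomputable section

open UpperHalfPlane hiding I
open CongruenceSubgroup ModularCurve AlgebraicCurve
open Fermat.Agent.ModFun Fermat.Agent.MazurPrinciple
open Fermat.Agent.Ribet.MP (deltaUnit deltaUnit_ne_zero coe_deltaUnit)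
open scoped MatrixGroups ModularForm

namespace Fermat.Agent.MazurPrinciple2

local notation "ℚbar" => AlgebraicClosure ℚ

variable {M q : ℕ} [NeZero M] [hq : Fact q.Prime]

local instance neZero_primeCubeDivisor : NeZero q := ⟨hq.out.ne_zero⟩

variable {r : ℕ} [NeZero r]

/-- The defining relation of the cube unit in the functions of level `M q`. -/
theorem cube_relation (hrM : r ∣ M) {W : BadReduction.X0F M q}
    (h : W ^ 3 * heckeAlphaBar ℚbar M q (deltaUnit M r hrM) =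
      modUnit M q ^ 2 * heckeBetaBar ℚbar M q (deltaUnit M r hrM)) :
    W ^ 3 * deltaUnit (M * q) r (hrM.trans (dvd_mul_right M q)) =
      deltaUnit (M * q) q (dvd_mul_left q M) *
        deltaUnit (M * q) (r * q) (Nat.mul_dvd_mul_right hrM q) := by
  have e1 : heckeAlphaBar ℚbar M q (deltaUnit M r hrM) =
      deltaUnit (M * q) r (hrM.trans (dvd_mul_right M q)) :=
    Subtype.ext (by rw [coe_heckeAlphaBar, coe_deltaUnit, coe_deltaUnit])
  have e0 : modUnit M q = deltaUnit (M * q) q (dvd_mul_left q M) :=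
    Subtype.ext (by rw [coe_modUnit, coe_deltaUnit])
  have e2 : modUnit M q * heckeBetaBar ℚbar M q (deltaUnit M r hrM) =
      deltaUnit (M * q) (r * q) (Nat.mul_dvd_mul_right hrM q) := Subtype.ext (by
    show (modUnit M q : LaurentSeries ℚbar) * (heckeBetaBar ℚbar M q (deltaUnit M r hrM) :
      LaurentSeries ℚbar) = _
    rw [coe_heckeBetaBar, coe_deltaUnit, coe_deltaUnit, coe_modUnit, coeffEmb,
      ← coeffMap_qExpand, ← map_mul]
    congr 1
    have e : qExpand ℚ q (deltaSeriesN r) = deltaSeriesN (r * q) := by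
      rw [deltaSeriesN, deltaSeriesN, qExpand_qExpand]
      exact qExpand_congr (mul_comm q r) _
    rw [map_div₀, e, show qExpand ℚ q deltaSeries = deltaSeriesN q from rfl]
    have h2 := deltaSeriesN_ne_zero q
    have h3 := deltaSeries_ne_zero
    field_simp)
  rw [← e1, h, ← e2, ← e0, pow_two, mul_assoc]

/-- The arithmetic of the cusp orders. -/
theorem three_dvd_of_relation {r : ℕ} (hr : r % 9 = 8) {x u v z w : ℤ} {A B a b : ℕ}
    (hA : (A = 1 ∧ B = r) ∨ (A = r ∧ B = 1)) (ha : (a = 1 ∧ b = 3) ∨ (a = 3 ∧ b = 1))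
    (hu : (b : ℤ) * u = w * ((a : ℤ) - b)) (hv : (B : ℤ) * v = w * ((A : ℤ) - B))
    (hz : ((B * b : ℕ) : ℤ) * z = w * (((A * a : ℕ) : ℤ) - (B * b : ℕ)))
    (h : 3 * x + v = u + z) : (3 : ℤ) ∣ x := by
  obtain ⟨k, hk⟩ : ∃ k : ℤ, (r : ℤ) = 9 * k + 8 := ⟨(r / 9 : ℕ), by omega⟩
  push_cast at hz
  have hmain : (B : ℤ) * b * (3 * x) =
      w * ((B : ℤ) * (a - b) + ((A : ℤ) * a - B * b) - b * ((A : ℤ) - B)) := by
    linear_combination ((B : ℤ) * b) * h + (B : ℤ) * hu + hz - (b : ℤ) * hv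
  have hw : b = 3 → (3 : ℤ) ∣ w := fun hb => by
    obtain ⟨rfl, -⟩ : a = 1 ∧ b = 3 := ha.resolve_right (by omega)
    subst hb
    push_cast at hu; omega
  have hcop : (3 : ℤ) ∣ (r : ℤ) * x → (3 : ℤ) ∣ x := fun h3 =>
    (Int.prime_three.dvd_or_dvd h3).resolve_left (by omega)
  rcases hA with ⟨rfl, rfl⟩ | ⟨rfl, rfl⟩ <;> rcases ha with ⟨rfl, rfl⟩ | ⟨rfl, rfl⟩
  · obtain ⟨w', rfl⟩ := hw rfl
    refine hcop ⟨-2 * w' * (k + 1), ?_⟩
    push_cast at hmain; simp only [hk] at hmain ⊢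
    linarith
  · refine hcop ⟨2 * w * (k + 1), ?_⟩
    push_cast at hmain; simp only [hk] at hmain ⊢
    linarith
  · obtain ⟨w', rfl⟩ := hw rfl
    refine ⟨-2 * w' * (k + 1), ?_⟩
    push_cast at hmain; simp only [hk] at hmain ⊢
    linarith
  · refine ⟨2 * w * (k + 1), ?_⟩
    push_cast at hmain; simp only [hk] at hmain ⊢
    linarith

/-- `3` divides every order of the cube unit. -/
theorem three_dvd_ord (hq3 : q = 3) (hr : r.Prime) (hr9 : r % 9 = 8) (hrM : r ∣ M)
    {W : BadReduction.X0F M q} (hW : W ≠ 0)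
    (hcube : W ^ 3 * heckeAlphaBar ℚbar M q (deltaUnit M r hrM) =
      modUnit M q ^ 2 * heckeBetaBar ℚbar M q (deltaUnit M r hrM))
    (hord : ∀ v : Place ℚbar (BadReduction.X0F M q),
        0 ≤ v.ord (Igusa.jBar (M * q)) → v.ord W = 0)
    (v : Place ℚbar (BadReduction.X0F M q)) : (q : ℤ) ∣ v.ord W := by
  haveI : (Gamma0 (M * q)).FiniteIndex :=
    ⟨by rw [Places.index_Gamma0]; exact (Gamma0.dedekindPsi_pos (M * q)).ne'⟩
  rcases le_or_gt 0 (v.ord (Igusa.jBar (M * q))) with hv | hv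
  · rw [hord v hv]; exact dvd_zero _
  let ι : ℚbar →+* ℂ := (IsAlgClosed.lift (R := ℚ) (S := ℚbar) (M := ℂ)).toRingHom
  let Mod := Places.x0Model (M * q)
  set w := Curve.placeToC (M * q) ι v with hw
  have hj : barToC (M * q) ι (Igusa.jBar (M * q)) = Mod.jF := Subtype.ext (by
    show coeffMap ι (Igusa.jBar (M * q) : LaurentSeries ℚbar) = jqModC ℂ
    rw [Igusa.coe_jBar, coeffEmb, coeffMap_coeffMap, ← jqModC_rat, ModFun.coeffMap_jqModC])
  obtain ⟨g, hg⟩ := (Mod.ord_jF_neg_iff w).1 (by rwa [← hj, hw, Curve.ord_placeToC])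
  obtain ⟨a, b, hab, ha, hu⟩ := exists_ord_deltaUnit_cusp ι g q (dvd_mul_left q M)
  obtain ⟨A, B, hAB, hA, hv'⟩ :=
    exists_ord_deltaUnit_cusp ι g r (hrM.trans (dvd_mul_right M q))
  obtain ⟨a', b', hab', ha', hz⟩ :=
    exists_ord_deltaUnit_cusp ι g (r * q) (Nat.mul_dvd_mul_right hrM q)
  have hrq : r ≠ q := by omega
  rw [gcd_mul_of_prime hr hq.out hrq, ← hA, ← ha] at ha'
  have hb' : b' = B * b := by
    refine Nat.eq_of_mul_eq_mul_left (n := a') (Nat.pos_of_ne_zero fun h0 => ?_) ?_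
    · rw [h0, zero_mul] at hab'
      exact mul_ne_zero hr.ne_zero hq.out.ne_zero hab'.symm
    · rw [hab', ha', mul_mul_mul_comm, hAB, hab]
  rw [hb', ha'] at hz
  have split2 : ∀ {s A B : ℕ}, s.Prime → A * B = s → (A = 1 ∧ B = s) ∨ (A = s ∧ B = 1) := by
    intro s A B hs h
    rcases (Nat.dvd_prime hs).1 ⟨B, h.symm⟩ with rfl | rfl
    · exact Or.inl ⟨rfl, by simpa using h⟩
    · exact Or.inr ⟨rfl, by simpa [hs.ne_zero] using h⟩
  have hsum := congrArg v.ord (cube_relation hrM hcube)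
  rw [v.ord_mul (pow_ne_zero _ hW) (deltaUnit_ne_zero _ _ _), Curve.ord_pow,
    v.ord_mul (deltaUnit_ne_zero _ _ _) (deltaUnit_ne_zero _ _ _)] at hsum
  rw [← Curve.ord_placeToC (M * q) ι v (deltaUnit (M * q) r _),
    ← Curve.ord_placeToC (M * q) ι v (deltaUnit (M * q) q _),
    ← Curve.ord_placeToC (M * q) ι v (deltaUnit (M * q) (r * q) _), ← hw, ← hg] at hsum
  have hq3' : (a = 1 ∧ b = 3) ∨ (a = 3 ∧ b = 1) := by
    rcases split2 hq.out hab with h | h
    · exact Or.inl ⟨h.1, h.2.trans hq3⟩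
    · exact Or.inr ⟨h.1.trans hq3, h.2⟩
  rw [show (q : ℤ) = 3 by exact_mod_cast hq3]
  exact three_dvd_of_relation hr9 (split2 hr hAB) hq3' hu hv' hz (by exact_mod_cast hsum)

end Fermat.Agent.MazurPrinciple2

end
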