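/-
Mazur's principle at `3`: the thick supersingular places of `X₀(M)` in characteristic `3`.
-/
import Fermat.Agent.BadReduction.X0Frobenius

set_option autoImplicit false

noncomputable section

namespace Fermat.Agent.MazurPrinciple2

open ModularCurve AlgebraicCurve
open Fermat.Agent.BadReduction

/-- A zero of `j` of order prime to `3`: a supersingular place whose node has thickness divisible
by `3`. -/
def IsThick {k : Type*} [Field k] {M : ℕ} [NeZero M]
    (v : Place k (modularFunctionFieldFullC k M)) : Prop :=
  0 < v.ord (resJ k M) ∧ ¬ (3 : ℤ) ∣ v.ord (resJ k M)

end Fermat.Agent.MazurPrinciple2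

end
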