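/-
Mazur's principle at `3`: `T_ℓ` on the elliptic points of order `3` of `X₀(N)` is `ℓ + 1` modulo
`3`: a neighbour which is not elliptic occurs with multiplicity divisible by `3`, and an elliptic
neighbour is the point itself.
-/
import Fermat.Agent.Residual.HeckeBridge
import Fermat.Agent.Igusa.BranchValues

set_option autoImplicit false
set_option linter.style.haveILetI false

noncomputable section

namespace Fermat.Agent.MazurPrinciple2

open UpperHalfPlane CongruenceSubgroup ModularCurve AlgebraicCurve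
open Residual.HeckePts
open scoped MatrixGroups

attribute [local instance] Torsion.algQC Torsion.algQE Torsion.algFE Torsion.isScalarTower_QCE
  Torsion.isScalarTower_QFE Torsion.isConstExt_FC

local notation "ℚbar" => AlgebraicClosure ℚ

variable {N ℓ : ℕ} [NeZero N] [NeZero ℓ]

omit [NeZero N] [NeZero ℓ] in
/-- `-1` lies in `Γ₀(N)`. -/
theorem neg_one_mem_gamma0 : (-1 : SL(2, ℤ)) ∈ Gamma0 N := by simp [Gamma0_mem]

omit [NeZero N] [NeZero ℓ] in
/-- At an elliptic point of order `3` the whole stabiliser is in `Γ₀(N)`. -/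
theorem mem_gamma0_of_fixed {τ : ℍ} (h3 : Places.ellPeriod (Gamma0 N) τ = 3)
    {g : SL(2, ℤ)} (hg : g • τ = τ) : g ∈ Gamma0 N := by
  haveI := Places.finite_stabilizer τ
  have htop : Places.ellPeriod ⊤ τ = 3 := by
    have h := Places.ellPeriod_dvd_top (neg_one_mem_gamma0 (N := N)) τ
    rw [h3, Places.ellPeriod_top_eq] at h
    rw [Places.ellPeriod_top_eq]
    split_ifs at h ⊢ <;> norm_num at h
    rfl
  have hcard : Nat.card (Places.stabIn (Gamma0 N) τ) =
      Nat.card (MulAction.stabilizer SL(2, ℤ) τ) := by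
    rw [← Places.two_mul_ellPeriod (neg_one_mem_gamma0 (N := N)), h3,
      ← Places.two_mul_ellPeriod_top, htop]
  have h := Subgroup.eq_top_of_card_eq _ hcard
  have hm : (⟨g, hg⟩ : MulAction.stabilizer SL(2, ℤ) τ) ∈ Places.stabIn (Gamma0 N) τ :=
    h ▸ Subgroup.mem_top _
  exact hm

omit [NeZero N] [NeZero ℓ] in
/-- An elliptic point of order `3` is a zero of `j`. -/
theorem jfun_eq_zero_of_ellPeriod {τ : ℍ} (h3 : Places.ellPeriod (Gamma0 N) τ = 3) :
    ModFun.jfun τ = 0 := by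
  have h := Places.ellPeriod_dvd_top (neg_one_mem_gamma0 (N := N)) τ
  rw [h3, Places.ellPeriod_top_eq] at h
  split_ifs at h with h0 <;> first | exact h0 | norm_num at h

omit [NeZero N] [NeZero ℓ] in
/-- An elliptic neighbour of an elliptic point of order `3` is the point itself. -/
theorem exists_smul_of_nbr [Fact ℓ.Prime] (hℓN : ¬ ℓ ∣ N) {τ σ : ℍ}
    (hτ : Places.ellPeriod (Gamma0 N) τ = 3) (hσ : Places.ellPeriod (Gamma0 N) σ = 3)
    (i : Nbrs N ℓ τ σ) : ∃ γ ∈ Gamma0 N, γ • τ = σ := by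
  obtain ⟨i, δ, hδ, hi⟩ := i
  set X : Residual.CMFix.IMat := (δ : Residual.CMFix.IMat) * Residual.CMFix.heckeMat ℓ i with hX
  have hXdet : X.det = ℓ := by rw [hX, Matrix.det_mul, Residual.CMFix.det_heckeMat]; simp
  have hℓ0 : (0 : ℤ) < ℓ := by exact_mod_cast (Fact.out : ℓ.Prime).pos
  have hX10 : (N : ℤ) ∣ X 1 0 := by
    have h := Residual.CMFix.coe_Gamma0_dvd hδ
    simpa [hX, Matrix.mul_apply, Fin.sum_univ_two, Residual.CMFix.heckeMat_ten] using
      h.mul_right _
  have hXτ : Newform.atkinGL X • τ = σ := by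
    rw [Residual.atkinGL_smul_SL_eq (det_heckeMat_pos i).ne' hX, hi]
  clear_value X
  obtain ⟨d, hd⟩ := ModFun.jfun_eq_iff.1 (Places.jfun_rho.trans (jfun_eq_zero_of_ellPeriod hτ).symm)
  obtain ⟨e, he⟩ := ModFun.jfun_eq_iff.1 (Places.jfun_rho.trans (jfun_eq_zero_of_ellPeriod hσ).symm)
  refine ⟨e * d⁻¹, ?_, by rw [mul_smul, ← hd, inv_smul_smul, he]⟩
  set R : SL(2, ℤ) := ModularGroup.S * ModularGroup.T
  have hG : d * R * d⁻¹ ∈ Gamma0 N := by
    refine mem_gamma0_of_fixed hτ ?_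
    rw [mul_smul, mul_smul, ← hd, inv_smul_smul,
      show R • UpperHalfPlane.ρ = UpperHalfPlane.ρ from
        ModularGroup.stabilizer_ρ.2 (by simp [R])]
  -- the matrix at `ρ` is in the order `ℤ[ρ]`
  set Y : Residual.CMFix.IMat :=
    ((e⁻¹ : SL(2, ℤ)) : Residual.CMFix.IMat) * (X * (d : Residual.CMFix.IMat)) with hY
  have hXd : (X * (d : Residual.CMFix.IMat)).det = ℓ := by rw [Matrix.det_mul, hXdet]; simp
  have hYdet : 0 < Y.det := by
    rw [hY, Matrix.det_mul, hXd, Matrix.SpecialLinearGroup.det_coe, one_mul]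
    exact hℓ0
  have hYρ : Newform.atkinGL Y • UpperHalfPlane.ρ = UpperHalfPlane.ρ := by
    rw [Residual.atkinGL_smul_SL_eq (by rw [hXd]; exact hℓ0.ne') hY,
      ← Residual.atkinGL_smul_smul (by rw [hXdet]; exact hℓ0.ne'), hd, hXτ, ← he, inv_smul_smul]
  clear_value Y
  have hfix := (Residual.CMFix.fixes_iff_smul hYdet _).2 hYρ
  simp only [Residual.CMFix.Fixes, Residual.CMFix.den] at hfix
  obtain ⟨h1, h2⟩ := Residual.CMFix.eq_zero_of_cast (u := Y 0 0 + Y 1 0 - Y 1 1)
    (v := Y 0 1 + Y 1 0) (τ := UpperHalfPlane.ρ) (by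
      push_cast
      linear_combination hfix + (Y 1 0 : ℂ) * UpperHalfPlane.ρ_sq)
  have hRm : (R : Residual.CMFix.IMat) = !![0, -1; 1, 1] := by
    rw [show R = ModularGroup.S * ModularGroup.T from rfl, Matrix.SpecialLinearGroup.coe_mul,
      ModularGroup.coe_S, ModularGroup.coe_T]
    ext r c
    fin_cases r <;> fin_cases c <;> simp [Matrix.mul_apply, Fin.sum_univ_two]
  have hYeq : Y = Y 0 0 • (1 : Residual.CMFix.IMat) + Y 1 0 • (R : Residual.CMFix.IMat) := by
    ext r c
    rw [hRm, Matrix.add_apply, Matrix.smul_apply, Matrix.smul_apply, smul_eq_mul, smul_eq_mul]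
    fin_cases r <;> fin_cases c <;> simp <;> linarith
  have hXeq : X = ((e * d⁻¹ : SL(2, ℤ)) : Residual.CMFix.IMat) *
      (Y 0 0 • (1 : Residual.CMFix.IMat) +
        Y 1 0 • ((d * R * d⁻¹ : SL(2, ℤ)) : Residual.CMFix.IMat)) := by
    have hinv : ∀ g : SL(2, ℤ),
        ((g : Residual.CMFix.IMat) * ((g⁻¹ : SL(2, ℤ)) : Residual.CMFix.IMat)) = 1 := by
      intro g
      rw [← Matrix.SpecialLinearGroup.coe_mul, mul_inv_cancel, Matrix.SpecialLinearGroup.coe_one]
    calc X = (e : Residual.CMFix.IMat) * Y * ((d⁻¹ : SL(2, ℤ)) : Residual.CMFix.IMat) := by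
          rw [hY, ← Matrix.mul_assoc, hinv, Matrix.one_mul, Matrix.mul_assoc, hinv, Matrix.mul_one]
      _ = _ := by
          conv_lhs => rw [hYeq]
          rw [Matrix.mul_add, Matrix.add_mul, Matrix.mul_add]
          simp only [Matrix.mul_smul, Matrix.smul_mul, Matrix.mul_one,
            ← Matrix.SpecialLinearGroup.coe_mul]
          congr 3
          group
  set η : SL(2, ℤ) := e * d⁻¹
  set G : SL(2, ℤ) := d * R * d⁻¹
  have hG10 := Residual.CMFix.coe_Gamma0_dvd hG
  have hdetZ := congrArg Matrix.det hXeq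
  rw [Matrix.det_mul, hXdet, Matrix.SpecialLinearGroup.det_coe, one_mul, Matrix.det_fin_two]
    at hdetZ
  have h10 := congrFun (congrFun hXeq 1) 0
  simp only [Matrix.mul_apply, Fin.sum_univ_two, Matrix.add_apply, Matrix.smul_apply,
    Matrix.one_apply_eq, ne_eq, Fin.reduceEq, not_false_eq_true, Matrix.one_apply_ne,
    smul_eq_mul, mul_one, mul_zero, zero_add] at h10 hdetZ
  rw [Gamma0_mem, ZMod.intCast_zmod_eq_zero_iff_dvd]
  have hkey : (N : ℤ) ∣ (ℓ : ℤ) * (η : Residual.CMFix.IMat) 1 0 := by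
    have hsum : (ℓ : ℤ) * (η : Residual.CMFix.IMat) 1 0 =
        X 1 0 * (Y 0 0 + Y 1 0 * (G : Residual.CMFix.IMat) 1 1) -
        (G : Residual.CMFix.IMat) 1 0 * (Y 1 0 * ((η : Residual.CMFix.IMat) 1 1 *
            (Y 0 0 + Y 1 0 * (G : Residual.CMFix.IMat) 1 1) +
          (η : Residual.CMFix.IMat) 1 0 * (Y 1 0 * (G : Residual.CMFix.IMat) 0 1))) := by
      rw [h10, hdetZ]; ring
    rw [hsum]
    exact dvd_sub (hX10.mul_right _) (hG10.mul_right _)
  have hcop : IsCoprime (N : ℤ) (ℓ : ℤ) := by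
    rw [Int.isCoprime_iff_gcd_eq_one, Int.gcd_natCast_natCast]
    exact ((Nat.Prime.coprime_iff_not_dvd (Fact.out : ℓ.Prime)).2 hℓN).symm
  exact hcop.dvd_of_dvd_mul_left hkey

/-- The coordinate `j` over `ℚbar` maps to the one over `ℂ`. -/
theorem algebraMap_jBar :
    algebraMap (modularFunctionFieldBar N) (modularFunctionFieldC ℂ N) (Igusa.jBar N) =
      (Places.x0Model N).jF :=
  Subtype.ext (by
    show coeffMap Torsion.qbarToC (Igusa.jBar N : LaurentSeries ℚbar) = jqModC ℂ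
    rw [Igusa.coe_jBar, coeffEmb, coeffMap_coeffMap, ← jqModC_rat, ModFun.coeffMap_jqModC])

/-- The Hecke correspondence at an elliptic point of order `3`. -/
theorem dvd_heckeDiv_single_sub (hℓ : ℓ.Prime) (hℓN : ¬ ℓ ∣ N)
    {P : Place ℚbar (modularFunctionFieldBar N)} (hP : 0 < P.ord (Igusa.jBar N))
    (hP3 : ¬ (3 : ℤ) ∣ P.ord (Igusa.jBar N)) (Q : Place ℚbar (modularFunctionFieldBar N)) :
    (3 : ℤ) ∣ HeckeJ.heckeDiv ℚbar N ℓ (Finsupp.single P 1) Q -
      ((ℓ : ℤ) + 1) * (Finsupp.single P (1 : ℤ) : Divisor ℚbar (modularFunctionFieldBar N)) Q := by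
  classical
  haveI : Fact ℓ.Prime := ⟨hℓ⟩
  haveI : (Gamma0 N).FiniteIndex :=
    ⟨by rw [Places.index_Gamma0]; exact (Gamma0.dedekindPsi_pos (N := N)).ne'⟩
  haveI := HeckeJ.hasPrincipalDivisors_laurentBaseChange ℚbar (N * ℓ)
  set M := Places.x0Model N
  have hord : (Curve.placeExt ℂ (modularFunctionFieldC ℂ N) P).ord M.jF =
      P.ord (Igusa.jBar N) := by
    rw [← algebraMap_jBar, Curve.ord_placeExt]
  obtain ⟨τ, hjτ, hτ⟩ := (M.ord_jF_sub_pos_iff _ 0).1
    (by rw [map_zero, sub_zero, hord]; exact hP :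
      0 < (Curve.placeExt ℂ (modularFunctionFieldC ℂ N) P).ord (M.jF - algebraMap ℂ _ 0))
  have he : Places.ellPeriod (Gamma0 N) τ = 3 := by
    have h1 := M.ord_jF_sub_jfun τ
    rw [hjτ, map_zero, sub_zero, hτ, hord, Places.ellPeriod_top_eq, if_pos hjτ] at h1
    have h2 := Places.ellPeriod_dvd_top (neg_one_mem_gamma0 (N := N)) τ
    rw [Places.ellPeriod_top_eq, if_pos hjτ] at h2
    rcases (Nat.dvd_prime Nat.prime_three).1 h2 with h | h
    · rw [h] at h1
      exact absurd ⟨1, by simpa using h1⟩ hP3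
    · exact h
  -- away from `P`
  have hne : ∀ R, R ≠ P → (3 : ℤ) ∣ HeckeJ.heckeDiv ℚbar N ℓ (Finsupp.single P 1) R := by
    intro R hR
    rw [← Curve.divExt_apply_placeExt (Ω := ℂ) (E := modularFunctionFieldC ℂ N)
      (HeckeJ.heckeDiv ℚbar N ℓ (Finsupp.single P 1)) R]
    rcases M.exists_placeAt_or_cuspPlace (Curve.placeExt ℂ (modularFunctionFieldC ℂ N) R)
      with ⟨σ, hσ⟩ | ⟨g, hg⟩
    · rw [← hσ, divExt_heckeDiv_apply_placeAt hℓN hτ.symm σ]
      have hsym := natCard_nbrs_symm hℓN τ σ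
      rw [he] at hsym
      refine Int.natCast_dvd_natCast.2 ?_
      rcases (Nat.prime_three.dvd_mul).1 (Dvd.intro_left _ hsym.symm) with h | h
      · exact h
      · have hσ3 : Places.ellPeriod (Gamma0 N) σ = 3 := by
          have h2 := Nat.le_of_dvd (Places.ellPeriod_pos (Γ := ⊤) (Subgroup.mem_top _) σ)
            (h.trans (Places.ellPeriod_dvd_top (neg_one_mem_gamma0 (N := N)) σ))
          have h3 := Places.ellPeriod_dvd_top (neg_one_mem_gamma0 (N := N)) σ
          rw [Places.ellPeriod_top_eq] at h2 h3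
          split_ifs at h2 h3 <;> norm_num at h2
          exact le_antisymm (Nat.le_of_dvd (by norm_num) h3)
            (Nat.le_of_dvd (Places.ellPeriod_pos neg_one_mem_gamma0 σ) h)
        haveI : IsEmpty (Nbrs N ℓ τ σ) := ⟨fun i => by
          obtain ⟨γ, hγ, hγσ⟩ := exists_smul_of_nbr hℓN he hσ3 i
          exact hR (Curve.placeExt_injective (Ω := ℂ) (E := modularFunctionFieldC ℂ N)
            (by rw [← hσ, ← hτ, ← hγσ, M.placeAt_smul hγ]))⟩
        rw [Nat.card_of_isEmpty]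
        exact dvd_zero 3
    · rw [divExt_heckeDiv_single hℓN hτ.symm, Finsupp.finsetSum_apply,
        Finset.sum_eq_zero fun i _ => Finsupp.single_eq_of_ne
          (hg ▸ (M.placeAt_ne_cuspPlace _ g)).symm]
      exact dvd_zero 3
  -- at `P`, from the degree
  set D : Divisor ℚbar (modularFunctionFieldBar N) :=
    HeckeJ.heckeDiv ℚbar N ℓ (Finsupp.single P 1) - ((ℓ : ℤ) + 1) • Finsupp.single P 1 with hDdef
  have hD : ∀ R, R ≠ P → (3 : ℤ) ∣ D R := fun R hR => by
    rw [hDdef, Finsupp.sub_apply, Finsupp.smul_apply, Finsupp.single_eq_of_ne hR, smul_zero,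
      sub_zero]
    exact hne R hR
  have hsum : D.sum (fun _ n => n) = 0 := by
    have h0 : Divisor.degree D = 0 := by
      rw [hDdef, map_sub, map_zsmul, ← Residual.heckeCorr_toDiv N hℓN,
        (Residual.heckeCorr N hℓN).degree_toDiv, Residual.heckeCorr_deg, Divisor.degree_single,
        IsCurveOver.deg_eq_one_of_isAlgClosed]
      simp
    conv_rhs => rw [← h0, ← Finsupp.sum_single D, map_finsuppSum]
    refine Finsupp.sum_congr fun R _ => ?_
    rw [Divisor.degree_single, IsCurveOver.deg_eq_one_of_isAlgClosed]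
    simp
  have key : (3 : ℤ) ∣ D Q := by
    by_cases hQ : Q = P
    · subst hQ
      by_cases hs : Q ∈ D.support
      · have h := Finset.add_sum_erase D.support (fun R => D R) hs
        rw [show (∑ R ∈ D.support, D R) = 0 from hsum] at h
        rw [eq_neg_of_add_eq_zero_left h, dvd_neg]
        exact Finset.dvd_sum fun R hR => hD R (Finset.ne_of_mem_erase hR)
      · rw [Finsupp.notMem_support_iff.1 hs]
        exact dvd_zero 3
    · exact hD Q hQ
  rwa [hDdef, Finsupp.sub_apply, Finsupp.smul_apply, smul_eq_mul] at key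

end Fermat.Agent.MazurPrinciple2

end
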