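/-
Mazur's principle at `3`: the orders of the reductions of the function of an eigen class at the
thick places.

Modulo `3` their divisor on a component is carried by the thick places, these are reductions of
elliptic points, on which `T_l` is `l + 1`, while on the function it is `a_l`.
-/
import Fermat.Agent.MazurPrinciple.EigenStep
import Fermat.Agent.MazurPrinciple2.Defs
import Fermat.Agent.MazurPrinciple2.Elliptic
import Fermat.Agent.Residual.LowerHecke
import Fermat.Agent.ES.SpecialStable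
import Fermat.Agent.BadReduction.X0FrobeniusAtkin

set_option autoImplicit false
set_option linter.style.haveILetI false
set_option synthInstance.maxHeartbeats 400000

noncomputable section

namespace Fermat.Agent.MazurPrinciple2

open ModularCurve AlgebraicCurve IsLocalRing
open Fermat.Agent.BadReduction Fermat.Agent.MazurPrinciple

local notation "ℚbar" => AlgebraicClosure ℚ
local notation "Γℚ" => AlgebraicClosure ℚ ≃ₐ[ℚ] AlgebraicClosure ℚ

variable (W : WeierstrassCurve ℤ) {M : ℕ} [NeZero M] [h3 : Fact (Nat.Prime 3)]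

omit h3 in
/-- A divisor with values divisible by `3` pushes forward to one. -/
theorem three_dvd_mapDomain {α β : Type*} (g : α → β) {D : α →₀ ℤ} (h : ∀ a, (3 : ℤ) ∣ D a)
    (b : β) : (3 : ℤ) ∣ Finsupp.mapDomain g D b := by
  classical
  rw [Finsupp.mapDomain, Finsupp.sum_apply]
  refine Finset.dvd_sum fun a _ => ?_
  dsimp only
  rw [Finsupp.single_apply]
  split_ifs
  exacts [h a, dvd_zero _]

set_option maxHeartbeats 1600000 in
/-- A thick place is the reduction of an elliptic point of order `3`. -/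
theorem exists_elliptic_over_thick (hM : ¬ 3 ∣ M) {A : ValuationSubring ℚbar}
    (hA : A.LiesOverPrime 3) {w : Place (ResidueField A) (X0Res M A)} (hw : IsThick w) :
    ∃ P : Place ℚbar (modularFunctionFieldBar M),
      (Igusa.x0GoodReduction hM hA).placeMap P = w ∧
        0 < P.ord (Igusa.jBar M) ∧ ¬ (3 : ℤ) ∣ P.ord (Igusa.jBar M) := by
  classical
  set G := Igusa.x0GoodReduction hM hA
  haveI := G.isAlgClosed_residue
  haveI := charP_residueField A h3.out hA
  haveI := G.isFunctionFieldOne_special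
  obtain ⟨hJ, hφJ⟩ := exists_lift_resJ A hM hA
  have ht : Transcendental (ResidueField A) (resJ (ResidueField A) M) :=
    transcendental_resJ (ResidueField A) M
  have hne : G.φ ⟨_, hJ⟩ ≠ 0 := fun h => ht (by rw [← hφJ, h]; exact isAlgebraic_zero)
  have hpole : Curve.poleDivisor (ResidueField A) (resJ (ResidueField A) M) =
      G.divMap (Curve.poleDivisor ℚbar (Igusa.jBar M)) := by
    refine Curve.RedAux.eq_of_le_of_degree_le ?_ ?_
    · rw [← hφJ, Curve.RedAux.poleDivisor_le_iff (by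
        have := G.divMap_mono (Curve.RedAux.poleDivisor_nonneg (K := ℚbar) (Igusa.jBar M))
        rwa [map_zero] at this)]
      exact G.φ_mem_riemannRochSpace ⟨_, hJ⟩ (Curve.RedAux.mem_L_poleDivisor _)
    · rw [G.degree_divMap, Curve.degree_poleDivisor (transcendental_jBar M),
        Curve.degree_poleDivisor ht]
      exact_mod_cast (finrank_jBar_le M).trans (psi_le_finrank_jResidual A h3.out hM hA)
  have hnn : ∀ P, G.placeMap P = w → 0 ≤ P.ord (Igusa.jBar M) := by
    intro P hP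
    have hle : Finsupp.single P (Curve.poleDivisor ℚbar (Igusa.jBar M) P) ≤
        Curve.poleDivisor ℚbar (Igusa.jBar M) := by
      intro Q
      rcases eq_or_ne Q P with rfl | hQ
      · rw [Finsupp.single_eq_same]
      · rw [Finsupp.single_eq_of_ne hQ]
        exact Curve.RedAux.poleDivisor_nonneg _ Q
    have h1 := G.divMap_mono hle w
    rw [G.divMap_single, hP, Finsupp.single_eq_same, ← hpole, Curve.poleDivisor_apply,
      Curve.poleDivisor_apply] at h1
    have := hw.1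
    omega
  obtain ⟨P, hP, hP3⟩ : ∃ P, G.placeMap P = w ∧ ¬ (3 : ℤ) ∣ P.ord (Igusa.jBar M) := by
    by_contra hcon
    push Not at hcon
    refine hw.2 ?_
    have h1 := G.divMap_apply_eq_ord ⟨_, hJ⟩ hne
      (Curve.divisorOf_apply (Igusa.jBar M)) w
    rw [hφJ] at h1
    rw [← h1, Curve.GoodReduction.divMap_apply, Finsupp.mapDomain, Finsupp.sum_apply]
    refine Finset.dvd_sum fun P _ => ?_
    dsimp only
    rw [Finsupp.single_apply]
    split_ifs with h
    · rw [Curve.divisorOf_apply]; exact hcon P h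
    · exact dvd_zero _
  refine ⟨P, hP, lt_of_le_of_ne (hnn P hP) fun h => hP3 ?_, hP3⟩
  rw [← h]; exact dvd_zero _

set_option maxHeartbeats 1600000 in
/-- The Hecke operator is `l + 1` modulo `3` on the orders, when these are carried by the thick
places. -/
theorem dvd_ord_heckeFun_sub (hM : ¬ 3 ∣ M) {A : ValuationSubring ℚbar} (hA : A.LiesOverPrime 3)
    {l : ℕ} [NeZero l] (hl : l.Prime) (hlM : ¬ l ∣ M) {w : modularFunctionFieldBar M}
    (hw : w ∈ (Igusa.x0GoodReduction hM hA).V)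
    (hw0 : (Igusa.x0GoodReduction hM hA).φ ⟨w, hw⟩ ≠ 0)
    (hTw : HeckeJ.heckeFun ℚbar M l w ∈ (Igusa.x0GoodReduction hM hA).V)
    (hTw0 : (Igusa.x0GoodReduction hM hA).φ ⟨_, hTw⟩ ≠ 0)
    (hfar : ∀ v : Place (ResidueField A) (X0Res M A),
      ¬ IsThick v → (3 : ℤ) ∣ v.ord ((Igusa.x0GoodReduction hM hA).φ ⟨w, hw⟩))
    (v : Place (ResidueField A) (X0Res M A)) :
    (3 : ℤ) ∣ v.ord ((Igusa.x0GoodReduction hM hA).φ ⟨_, hTw⟩) -
      ((l : ℤ) + 1) * v.ord ((Igusa.x0GoodReduction hM hA).φ ⟨w, hw⟩) := by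
  classical
  set G := Igusa.x0GoodReduction hM hA
  haveI := G.isAlgClosed_residue
  obtain ⟨r, hr⟩ : ∃ r, IsPlaceReductionModL A M r :=
    ⟨_, (Igusa.reductionInputsModL hM hA).choose_spec.1⟩
  obtain rfl : r = G.placeMap := ES.eq_placeMap_of_isPlaceReduction hM hA hr
  have hsec : ∀ x, ∃ P : Place ℚbar (modularFunctionFieldBar M), G.placeMap P = x ∧
      (IsThick x → 0 < P.ord (Igusa.jBar M) ∧ ¬ (3 : ℤ) ∣ P.ord (Igusa.jBar M)) := by
    intro x
    by_cases hx : IsThick x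
    · obtain ⟨P, hP, h1, h2⟩ := exists_elliptic_over_thick hM hA hx
      exact ⟨P, hP, fun _ => ⟨h1, h2⟩⟩
    · obtain ⟨P, hP⟩ := G.placeMap_surjective x
      exact ⟨P, hP, fun h => absurd h hx⟩
  choose s hs hsj using hsec
  have hwne : w ≠ 0 := G.coe_ne_zero_of_φ_ne_zero hw0
  set E := Curve.divisorOf ℚbar w
  set o := G.divMap E with ho
  have hov : ∀ x, o x = x.ord (G.φ ⟨w, hw⟩) :=
    fun x => G.divMap_apply_eq_ord ⟨w, hw⟩ hw0 (Curve.divisorOf_apply _) x
  have hTv : G.divMap (HeckeJ.heckeDiv ℚbar M l E) v = v.ord (G.φ ⟨_, hTw⟩) :=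
    G.divMap_apply_eq_ord ⟨_, hTw⟩ hTw0
      (fun P => HeckeJ.heckeDiv_apply_of_ord ℚbar M l hwne (Curve.divisorOf_apply _) P) v
  have hback : Finsupp.mapDomain G.placeMap (Finsupp.mapDomain s o) = o := by
    rw [← Finsupp.mapDomain_comp, show G.placeMap ∘ s = id from funext hs, Finsupp.mapDomain_id]
  have hzero : Finsupp.mapDomain G.placeMap
      (E - Finsupp.mapDomain s o) = 0 := by
    rw [Finsupp.mapDomain_sub, hback, ho, Curve.GoodReduction.divMap_apply, sub_self]
  have hT := ES.mapDomain_hecke_eq_zero hM hA hr hl hlM hzero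
  rw [map_sub, Finsupp.mapDomain_sub, sub_eq_zero, ← Curve.GoodReduction.divMap_apply,
    ← Curve.GoodReduction.divMap_apply] at hT
  rw [← hTv, hT, ← hov]
  let γ : (Place (ResidueField A) (X0Res M A) →₀ ℤ) →+ ℤ :=
    (Finsupp.applyAddHom v).comp
      ((G.divMap.comp ((HeckeJ.heckeDiv ℚbar M l).comp (Finsupp.mapDomain.addMonoidHom s))) -
        ((l : ℤ) + 1) • AddMonoidHom.id _)
  have hγ : ∀ D, γ D = G.divMap (HeckeJ.heckeDiv ℚbar M l (Finsupp.mapDomain s D)) v -
      ((l : ℤ) + 1) * D v := fun D => rfl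
  rw [← hγ, ← Finsupp.sum_single o, map_finsuppSum]
  refine Finset.dvd_sum fun x _ => ?_
  dsimp only
  rw [show Finsupp.single x (o x) = o x • Finsupp.single x (1 : ℤ) by
    rw [Finsupp.smul_single, smul_eq_mul, mul_one], map_zsmul, smul_eq_mul]
  by_cases hx : IsThick x
  swap
  · exact dvd_mul_of_dvd_left (hov x ▸ hfar x hx) _
  refine dvd_mul_of_dvd_right ?_ _
  rw [hγ, Finsupp.mapDomain_single, ← smul_eq_mul, ← Finsupp.smul_apply,
    show Finsupp.single x (1 : ℤ) = G.divMap (Finsupp.single (s x) 1) by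
      rw [G.divMap_single, hs],
    ← map_zsmul, ← Finsupp.sub_apply, ← map_sub]
  refine three_dvd_mapDomain G.placeMap (fun Q => ?_) v
  rw [Finsupp.sub_apply, Finsupp.smul_apply, smul_eq_mul]
  exact dvd_heckeDiv_single_sub hl hlM (hsj x hx).1 (hsj x hx).2 Q

set_option maxHeartbeats 1600000 in
/-- If `3` divides the orders outside the thick places then it divides all of them. -/
theorem dvd_ord_of_eigen (hM : ¬ 3 ∣ M) {A : ValuationSubring ℚbar} (hA : A.LiesOverPrime 3)
    {H : Subgroup Γℚ} (hH : H ≤ A.inertiaSubgroupIn ℚ) (U : Uniformiser A 3 H)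
    {f : (x0Descent hM hA hH U).F0} (hrel : HeckeRel W H (f : X0F M 3))
    {n : Fin 2 → ℤ} {φ : Fin 2 → X0Res M A}
    (hval : Move.HasVal (x0Descent hM hA hH U) (f : X0F M 3) n φ)
    (hfar : ∀ (i : Fin 2) (v : Place (ResidueField A) (X0Res M A)),
      ¬ IsThick v → (3 : ℤ) ∣ v.ord (φ i))
    {l : ℕ} (hl : l.Prime) (hlN : ¬ l ∣ M * 3) (hgood : W.IsGoodPrimeFor l)
    (hne : (W.apOfModel l : ZMod 3) ≠ ((1 + l : ℕ) : ZMod 3))
    (i : Fin 2) (v : Place (ResidueField A) (X0Res M A)) :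
    (3 : ℤ) ∣ v.ord (φ i) := by
  haveI : NeZero l := ⟨hl.ne_zero⟩
  haveI := (Igusa.x0GoodReduction hM hA).isFunctionFieldOne_special
  set G := Igusa.x0GoodReduction hM hA
  obtain ⟨C, m, g, hC, hg, hm, e⟩ := exists_rel_F0 W hM hA hH U hrel l hl hlN hgood
  set z : (x0Descent hM hA hH U).F0 := f * (x0Descent hM hA hH U).πF ^ (-n i) with hz
  have hφ0 : φ i ≠ 0 := hval.ne_zero i
  have hlead : ((x0Descent hM hA hH U).redSystem.R i).Lead 0 z (φ i) := Move.HasVal.lead hval i
  obtain ⟨hzV, hzφ⟩ := (x0Descent hM hA hH U).lead_zero_iff.1 hlead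
  obtain ⟨⟨w, hw⟩, hwφ⟩ := G.φ_surjective (φ i)
  have hzne : compPhi hM A hA i ⟨(z : X0F M 3), hzV⟩ ≠ 0 := fun h0 => hφ0 (hzφ.symm.trans h0)
  obtain ⟨hTz, hTw, eT⟩ := Residual.Lower.compPhi_heckeFun_eq hM A hA hl hlN i hzV hw hzne
    (hzφ.trans hwφ.symm)
  obtain ⟨_, hTz0⟩ := Residual.Lower.compPhi_heckeFun_ne_zero hM A hA hl hlN i hzV hzne
  set B' : X0Res M A := G.φ ⟨_, hTw⟩ with hB'def
  have hB'0 : B' ≠ 0 := fun h0 => hTz0 (eT.trans h0)
  have hB' : ((x0Descent hM hA hH U).redSystem.R i).Lead 0 (heckeF0 hM hA hH U l z) B' :=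
    (x0Descent hM hA hH U).lead_zero_iff.2 ⟨hTz, eT⟩
  set C' := C * heckeF0 hM hA hH U l ((x0Descent hM hA hH U).πF ^ (-n i)) *
    ((x0Descent hM hA hH U).πF ^ (n i)) ^ m with hC'
  have hC'mem : C' ∈ (x0Descent hM hA hH U).redSystem.Kc :=
    mul_mem (mul_mem hC (exists_heckeFun_const hM hA hH U l
      (zpow_mem (x0Descent hM hA hH U).redSystem.π_mem_Kc _)))
      (pow_mem (zpow_mem (x0Descent hM hA hH U).redSystem.π_mem_Kc _) _)
  have hzm := hlead.pow m
  rw [Nat.zero_mul] at hzm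
  have hR : ((x0Descent hM hA hH U).redSystem.R i).Lead 0 (C' * g ^ 3) (B' * (φ i ^ m)⁻¹) := by
    have h1 := hB'.mul (hzm.inv (pow_ne_zero _ hφ0))
    rw [add_zero] at h1
    have hf0 : f ≠ 0 := left_ne_zero_of_mul (hlead.ne_zero hφ0)
    convert h1 using 1
    rw [hz, heckeF0_mul, e, hC', mul_pow, mul_inv,
      ← inv_pow ((x0Descent hM hA hH U).πF ^ (-n i)), zpow_neg, inv_inv]
    field_simp
  obtain ⟨c, F, hF, eR⟩ := exists_const_mul_pow_of_lead hM hA hH U hC'mem hg hR
  have eB : B' = algebraMap (ResidueField A) (X0Res M A) c * F ^ 3 * φ i ^ m := by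
    rw [← eR, inv_mul_cancel_right₀ (pow_ne_zero _ hφ0)]
  have hc0 : algebraMap (ResidueField A) (X0Res M A) c ≠ 0 := fun h0 =>
    hB'0 (by rw [eB, h0, zero_mul, zero_mul])
  have hord : v.ord B' = 3 * v.ord F + (m : ℤ) * v.ord (φ i) := by
    rw [eB, v.ord_mul (mul_ne_zero hc0 (pow_ne_zero _ hF)) (pow_ne_zero _ hφ0),
      v.ord_mul hc0 (pow_ne_zero _ hF), Curve.ord_algebraMap, Curve.ord_pow,
      Curve.ord_pow]
    push_cast
    ring
  have hT := dvd_ord_heckeFun_sub hM hA hl (fun h => hlN (h.trans (dvd_mul_right M 3))) hw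
    (hwφ.symm ▸ hφ0) hTw hB'0 (fun x hx => hwφ.symm ▸ hfar i x hx) v
  rw [hwφ, ← hB'def, hord] at hT
  have h1 : (3 : ℤ) ∣ ((m : ℤ) - ((l : ℤ) + 1)) * v.ord (φ i) := by
    rw [show ((m : ℤ) - ((l : ℤ) + 1)) * v.ord (φ i) =
      3 * v.ord F + (m : ℤ) * v.ord (φ i) - ((l : ℤ) + 1) * v.ord (φ i) - 3 * v.ord F by ring]
    exact dvd_sub hT (dvd_mul_right _ _)
  refine ((Nat.prime_iff_prime_int.1 h3.out).dvd_or_dvd h1).resolve_left fun h => hne ?_
  rw [← hm]
  have h' := (ZMod.intCast_zmod_eq_zero_iff_dvd _ 3).2 h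
  push_cast at h' ⊢
  linear_combination h'

end Fermat.Agent.MazurPrinciple2

end
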