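/-
Mazur's principle at `3`: the moving lemma of `Fermat.Agent.MP.SecondMove` for roots of order a
power `Q = p ^ m` of the characteristic, `x ↦ x ^ Q` being still additive.
-/
import Fermat.Agent.MP.SecondSplit

set_option autoImplicit false
set_option linter.style.haveILetI false

noncomputable section

namespace Fermat.Agent.MazurPrinciple2.Move

open AlgebraicCurve IntermediateField Fermat.Agent.Curve Fermat.Agent.Curve.RedAux
open Fermat.Agent.Bad Fermat.Agent.Bad.MultiReduction Fermat.Agent.Ribet.Slot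
open Fermat.Agent.MazurPrinciple.Move

universe uK uF uι uk uFb uS

/-- `Q` is a power of the prime characteristic of `k`. -/
class CharPow (k : Type uk) [Field k] (Q : ℕ) : Prop where
  exists_eq : ∃ l m : ℕ, l.Prime ∧ CharP k l ∧ Q = l ^ m

/-- A power of the prime characteristic is positive. -/
theorem CharPow.pos {k : Type uk} [Field k] {Q : ℕ} (h : CharPow k Q) : 0 < Q := by
  obtain ⟨l, m, hl, -, rfl⟩ := h.exists_eq
  exact pow_pos hl.pos m

section

variable {K : Type uK} [Field K] {A : ValuationSubring K}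
  {F : Type uF} [Field F] [Algebra K F] {ι : Type uι} [Fintype ι]
  {k : Type uk} [Field k] {Fb : ι → Type uFb} [∀ i, Field (Fb i)] [∀ i, Algebra k (Fb i)]
  [IsAlgClosed K] [IsFunctionFieldOne K F] [∀ i, IsFunctionFieldOne k (Fb i)]
  {R : MultiReduction A F k Fb} {S : Type uS} [Fintype S] {P : NodePairs R S}
  {p : ℕ} [hp : CharPow k p] {φ : ∀ i, Fb i} {N : ℕ}

variable (k) in
omit [IsAlgClosed K] [Fintype ι] [IsFunctionFieldOne K F] [∀ i, IsFunctionFieldOne k (Fb i)] in
include k hp in
/-- `x ↦ x ^ p` is additive. -/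
theorem add_pow_charPow (i : ι) (x y : Fb i) : (x + y) ^ p = x ^ p + y ^ p := by
  obtain ⟨l, m, hl, hchar, rfl⟩ := hp.exists_eq
  haveI := charP_of_injective_algebraMap (algebraMap k (Fb i)).injective l
  haveI : Fact l.Prime := ⟨hl⟩
  exact add_pow_char_pow x y l m

omit [IsAlgClosed K] [IsFunctionFieldOne K F] hp in
/-- Membership in the bounded root tuples, componentwise. -/
theorem mem_frobPolar {r : ∀ i, Fb i} :
    r ∈ rootPolar R p φ N ↔ ∀ i, r i ∈ rootSp p (N • poleDivisor k (R.xb i)) (φ i) := by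
  simp [rootPolar]

omit [IsAlgClosed K] in
/-- For a bounded root tuple `r` the tuple `r ^ p φ` is bounded by `p N` times the poles. -/
theorem pow_mul_mem_polarFibre {r : ∀ i, Fb i} (hr : r ∈ rootPolar R p φ N) :
    (fun i => r i ^ p * φ i) ∈ R.polarFibre (p * N) := by
  rw [R.mem_polarFibre]
  intro i
  rw [mul_comm p N, mul_nsmul]
  exact pow_mul_mem hp.pos (mem_frobPolar.1 hr i)

/-- `r ^ p φ` is regular at a branch without a pole of the coordinate. -/
theorem mem_branch {r : ∀ i, Fb i} (hr : r ∈ rootPolar R p φ N) {b : Σ i, Place k (Fb i)}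
    (hb : 0 ≤ b.2.ord (R.xb b.1)) :
    r b.1 ^ p * φ b.1 ∈ b.2.toValuationSubring :=
  R.mem_of_mem_polarFibre (pow_mul_mem_polarFibre hr) hb

variable (P p) in
/-- Tuples `r` with `r ^ p φ` bounded and glued. -/
def frobFibre (φ : ∀ i, Fb i) (N : ℕ) : Submodule k (∀ i, Fb i) where
  carrier := {r | r ∈ rootPolar R p φ N ∧ ∀ s,
    bval (P.br s 0) (fun i => r i ^ p * φ i) = bval (P.br s 1) (fun i => r i ^ p * φ i)}
  zero_mem' := by
    refine ⟨zero_mem _, fun s => ?_⟩
    haveI := R.isAlgClosed_residue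
    simp only [Pi.zero_apply, zero_pow hp.pos.ne', zero_mul, bval]
    rw [placeValue_zero, placeValue_zero]
  add_mem' := by
    rintro r r' ⟨hr, hr'⟩ ⟨hs, hs'⟩
    haveI := R.isAlgClosed_residue
    refine ⟨add_mem hr hs, fun s => ?_⟩
    simp only [Pi.add_apply, add_pow_charPow k, add_mul, bval]
    rw [placeValue_add _ (mem_branch hr (P.regular s 0)) (mem_branch hs (P.regular s 0)),
      placeValue_add _ (mem_branch hr (P.regular s 1)) (mem_branch hs (P.regular s 1))]
    exact congrArg₂ (· + ·) (hr' s) (hs' s)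
  smul_mem' := by
    rintro c r ⟨hr, hr'⟩
    haveI := R.isAlgClosed_residue
    refine ⟨Submodule.smul_mem _ c hr, fun s => ?_⟩
    simp only [Pi.smul_apply, smul_pow, smul_mul_assoc, bval]
    rw [placeValue_smul _ _ (mem_branch hr (P.regular s 0)),
      placeValue_smul _ _ (mem_branch hr (P.regular s 1))]
    exact congrArg _ (hr' s)

/-- Reductions of root functions are glued bounded root tuples. -/
theorem slotFibre_le {c d : ι → K} {f : F} (hc : IsSlot R c f φ)
    (hφ : ∀ i, φ i ≠ 0) (hd : ∀ i, d i ^ p * c i = 1) :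
    slotFibre (R := R) d (rootSp p (N • R.poleX) f) ≤ frobFibre P p φ N := by
  rintro r ⟨ψ, hψ, h⟩
  have h1 := isSlot_pow_mul hc hd h
  have hmem : (fun i => r i ^ p * φ i) ∈ R.spFibre (R.polarSp (p * N)) := by
    refine ⟨⟨ψ ^ p * f, R.mem_integers.2 fun i => by obtain ⟨hV, _⟩ := h1 i; simpa using hV⟩,
      ?_, ?_⟩
    · unfold polarSp
      rw [mul_comm p N, mul_nsmul]
      exact pow_mul_mem hp.pos hψ
    · funext i
      obtain ⟨hV, he⟩ := h1 i
      rw [R.red_apply]
      refine Eq.trans ?_ he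
      exact congrArg _ (Subtype.ext (by simp))
  refine ⟨mem_frobPolar.2 fun i => ?_, fun s => P.matched _ _ hmem s⟩
  rcases eq_or_ne (r i) 0 with h0 | h0
  · rw [h0]; exact zero_mem _
  · have h2 := R.spFibre_polar_le _ hmem
    rw [R.mem_polarFibre] at h2
    have h3 := h2 i
    rw [mul_comm p N, mul_nsmul] at h3
    exact (mem_rootSp_iff hp.pos h0 (hφ i)).2 h3

/-- A tuple with a prescribed non-zero value at one branch and zero values at the other
branches of the nodes. -/
theorem exists_single_value (P : NodePairs R S) (φ : ∀ i, Fb i) (hφ : ∀ i, φ i ≠ 0) :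
    ∃ N₀ : ℕ, ∀ N, N₀ ≤ N → ∀ b : Σ i, Place k (Fb i), 0 ≤ b.2.ord (R.xb b.1) →
      (p : ℤ) ∣ b.2.ord (φ b.1) → ∃ r ∈ rootPolar R p φ N,
        bval b (fun i => r i ^ p * φ i) ≠ 0 ∧
        ∀ s j, P.br s j ≠ b → bval (P.br s j) (fun i => r i ^ p * φ i) = 0 := by
  classical
  haveI := R.isAlgClosed_residue
  choose c hc using fun i => exists_exact_pole (k := k) (E := Fb i)
  refine ⟨∑ i, (c i + 2 * (Fintype.card S : ℤ)
    - Divisor.degree (floorDiv p (divisorOf k (φ i)))).toNat, fun N hN b hb hdvd => ?_⟩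
  obtain ⟨i, v⟩ := b
  set O : Finset (Place k (Fb i)) :=
    ((Finset.univ : Finset (S × Fin 2)).filter fun x => P.br x.1 x.2 ≠ ⟨i, v⟩).biUnion
      fun x => if h : (P.br x.1 x.2).1 = i then {h ▸ (P.br x.1 x.2).2} else ∅ with hO
  have hcardO : O.card ≤ 2 * Fintype.card S := by
    refine Finset.card_biUnion_le.trans ?_
    refine (Finset.sum_le_card_nsmul _ _ 1 fun x _ => ?_).trans ?_
    · split_ifs <;> simp
    · rw [smul_eq_mul, mul_one]
      refine (Finset.card_filter_le _ _).trans ?_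
      simp [mul_comm]
  have hvO : v ∉ O := by
    intro hv
    simp only [hO, Finset.mem_biUnion, Finset.mem_filter, Finset.mem_univ, true_and] at hv
    obtain ⟨x, hx, hv⟩ := hv
    generalize hbx : P.br x.1 x.2 = bx at hx hv
    obtain ⟨i', v'⟩ := bx
    split_ifs at hv with h
    · subst h
      simp only [Finset.mem_singleton] at hv
      exact hx (by rw [hv])
    · simp at hv
  set D : Divisor k (Fb i) := N • poleDivisor k (R.xb i) + floorDiv p (divisorOf k (φ i))
    - ∑ w ∈ O, Finsupp.single w 1 with hD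
  have hdeg : c i ≤ Divisor.degree D := by
    rw [hD, map_sub, map_add, map_nsmul, map_sum,
      degree_poleDivisor (t := R.xb i) (R.x_transcendental i)]
    simp only [Divisor.degree_single, deg_one, Nat.cast_one, mul_one, Finset.sum_const,
      nsmul_eq_mul]
    have h1 : (c i + 2 * (Fintype.card S : ℤ)
        - Divisor.degree (floorDiv p (divisorOf k (φ i)))).toNat ≤ N :=
      le_trans (Finset.single_le_sum (f := fun i => (c i + 2 * (Fintype.card S : ℤ)
        - Divisor.degree (floorDiv p (divisorOf k (φ i)))).toNat) (fun _ _ => Nat.zero_le _)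
        (Finset.mem_univ i)) hN
    have h2 : (N : ℤ) * 1 ≤ (N : ℤ) * (Module.finrank k⟮R.xb i⟯ (Fb i) : ℤ) :=
      mul_le_mul_of_nonneg_left (by exact_mod_cast R.degree_pos i) (by positivity)
    omega
  obtain ⟨w, hw, hw0, hword⟩ := hc i D v hdeg
  have hDle : D ≤ N • poleDivisor k (R.xb i) + floorDiv p (divisorOf k (φ i)) := by
    rw [hD]
    refine sub_le_self _ (Finset.sum_nonneg fun _ _ => ?_)
    exact Finsupp.single_nonneg.2 zero_le_one
  have hrmem : Pi.single i w ∈ rootPolar R p φ N := by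
    refine mem_frobPolar.2 fun i' => ?_
    rcases eq_or_ne i' i with rfl | hne
    · rw [Pi.single_eq_same]
      exact L_mono hDle hw
    · rw [Pi.single_eq_of_ne hne]; exact zero_mem _
  refine ⟨Pi.single i w, hrmem, ?_, fun s j hsj => ?_⟩
  · refine (placeValue_ne_zero_iff _ (mem_branch (b := ⟨i, v⟩) hrmem hb)).2 ?_
    simp only [Pi.single_eq_same]
    refine ⟨mul_ne_zero (pow_ne_zero _ hw0) (hφ i), ?_⟩
    rw [v.ord_mul (pow_ne_zero _ hw0) (hφ i), Curve.ord_pow v, hword, hD, Finsupp.sub_apply,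
      Finsupp.add_apply, poleBound_eq_zero (b := ⟨i, v⟩) hb, Finsupp.finsetSum_apply]
    simp only [Finsupp.single_apply, Finset.sum_ite_eq', hvO, if_false, zero_add, sub_zero,
      floorDiv_apply, divisorOf_apply]
    obtain ⟨q, hq⟩ := hdvd
    simp only at hq
    rw [hq, Int.mul_ediv_cancel_left _ (by exact_mod_cast hp.pos.ne')]
    ring
  · have hreg := P.regular s j
    have hmem := mem_branch (b := P.br s j) hrmem hreg
    refine (placeValue_eq_zero_iff _ hmem).2 ?_
    have hO' : ∀ h : (P.br s j).1 = i, h ▸ (P.br s j).2 ∈ O := fun h => by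
      simp only [hO, Finset.mem_biUnion, Finset.mem_filter, Finset.mem_univ, true_and]
      exact ⟨(s, j), hsj, by simp [h]⟩
    revert hreg hmem hO' hsj
    generalize P.br s j = bx
    obtain ⟨i', v'⟩ := bx
    intro hsj hreg hmem hO'
    rcases eq_or_ne i' i with rfl | hne
    · right
      have hv'O : v' ∈ O := hO' rfl
      simp only [Pi.single_eq_same]
      have h1 := (mem_L_iff hw0).1 hw v'
      rw [hD, Finsupp.sub_apply, Finsupp.add_apply, poleBound_eq_zero (b := ⟨i', v'⟩) hreg,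
        Finsupp.finsetSum_apply] at h1
      simp only [Finsupp.single_apply, Finset.sum_ite_eq', hv'O, if_true, zero_add,
        floorDiv_apply, divisorOf_apply] at h1
      rw [v'.ord_mul (pow_ne_zero _ hw0) (hφ i'), Curve.ord_pow v']
      have hp' : (0 : ℤ) < p := by exact_mod_cast hp.pos
      have h2 := Int.lt_ediv_add_one_mul_self (v'.ord (φ i')) hp'
      have h3 : (p : ℤ) * (1 - v'.ord (φ i') / (p : ℤ)) ≤ (p : ℤ) * v'.ord w :=
        mul_le_mul_of_nonneg_left (by omega) hp'.le
      have h4 := Int.mul_ediv_add_emod (v'.ord (φ i')) p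
      have h5 := Int.emod_nonneg (v'.ord (φ i')) hp'.ne'
      rw [mul_sub, mul_one] at h3
      omega
    · left
      simp only [Pi.single_eq_of_ne hne, zero_pow hp.pos.ne', zero_mul]

variable (R) in
omit [IsFunctionFieldOne K F] hp in
/-- Riemann–Roch for the bounded root tuples. -/
theorem exists_finrank_rootPolar (φ : ∀ i, Fb i) : ∃ N₀ : ℕ, ∀ N, N₀ ≤ N →
    FiniteDimensional k (rootPolar R p φ N) ∧
    (Module.finrank k (rootPolar R p φ N) : ℤ)
      = (N : ℤ) * ∑ i, (Module.finrank k⟮R.xb i⟯ (Fb i) : ℤ)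
        + ∑ i, Divisor.degree (floorDiv p (divisorOf k (φ i)))
        + ∑ i, (1 - (genusFF k (Fb i) : ℤ)) := by
  haveI := R.isAlgClosed_residue
  choose c hc using fun i => exists_finrank_L_eq (K := k) (F := Fb i)
  refine ⟨∑ i, (c i - Divisor.degree (floorDiv p (divisorOf k (φ i)))).toNat, fun N hN => ?_⟩
  haveI : ∀ i, FiniteDimensional k (rootSp p (N • poleDivisor k (R.xb i)) (φ i)) :=
    fun i => finite_L _
  let e : rootPolar R p φ N ≃ₗ[k] ∀ i, rootSp p (N • poleDivisor k (R.xb i)) (φ i) :=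
    { toFun := fun h i => ⟨h.1 i, mem_frobPolar.1 h.2 i⟩
      invFun := fun h => ⟨fun i => (h i).1, mem_frobPolar.2 fun i => (h i).2⟩
      map_add' := fun _ _ => rfl
      map_smul' := fun _ _ => rfl
      left_inv := fun _ => rfl
      right_inv := fun _ => rfl }
  refine ⟨e.symm.finiteDimensional, ?_⟩
  rw [e.finrank_eq, Module.finrank_pi_fintype, Nat.cast_sum, Finset.mul_sum,
    ← Finset.sum_add_distrib, ← Finset.sum_add_distrib]
  refine Finset.sum_congr rfl fun i _ => ?_
  have hdeg : Divisor.degree (N • poleDivisor k (R.xb i) + floorDiv p (divisorOf k (φ i)))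
      = (N : ℤ) * (Module.finrank k⟮R.xb i⟯ (Fb i) : ℤ)
        + Divisor.degree (floorDiv p (divisorOf k (φ i))) := by
    rw [map_add, map_nsmul, degree_poleDivisor (t := R.xb i) (R.x_transcendental i),
      nsmul_eq_mul]
  have h2 : (c i - Divisor.degree (floorDiv p (divisorOf k (φ i)))).toNat ≤ N :=
    le_trans (Finset.single_le_sum
      (f := fun i => (c i - Divisor.degree (floorDiv p (divisorOf k (φ i)))).toNat)
      (fun _ _ => Nat.zero_le _) (Finset.mem_univ i)) hN
  have h3 : (N : ℤ) ≤ (N : ℤ) * (Module.finrank k⟮R.xb i⟯ (Fb i) : ℤ) :=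
    le_mul_of_one_le_right (Int.natCast_nonneg N)
      (by exact_mod_cast (R.degree_pos i : 0 < Module.finrank k⟮R.xb i⟯ (Fb i)))
  have := hc i (N • poleDivisor k (R.xb i) + floorDiv p (divisorOf k (φ i))) (by rw [hdeg]; omega)
  rw [hdeg] at this
  rw [rootSp, this]
  ring

/-- Each node at which `p` divides an order cuts the glued tuples down by one dimension. -/
theorem exists_finrank_frobFibre_le (P : NodePairs R S) (φ : ∀ i, Fb i) (hφ : ∀ i, φ i ≠ 0) :
    ∃ N₀ : ℕ, ∀ N, N₀ ≤ N → FiniteDimensional k (frobFibre P p φ N) ∧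
      (Module.finrank k (frobFibre P p φ N) : ℤ) + ((divNodes P p φ).card : ℤ)
        ≤ (Module.finrank k (rootPolar R p φ N) : ℤ) := by
  classical
  haveI := R.isAlgClosed_residue
  obtain ⟨N₁, hN₁⟩ := exists_finrank_rootPolar R (p := p) φ
  obtain ⟨N₂, hN₂⟩ := exists_single_value (p := p) P φ hφ
  refine ⟨max N₁ N₂, fun N hN => ?_⟩
  haveI := (hN₁ N (le_of_max_le_left hN)).1
  have hle : frobFibre P p φ N ≤ rootPolar R p φ N := fun r hr => hr.1
  haveI : FiniteDimensional k (frobFibre P p φ N) := Submodule.finiteDimensional_of_le hle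
  refine ⟨inferInstance, ?_⟩
  set C := divNodes P p φ with hC
  have hC' : ∀ s : C, ∃ j, (p : ℤ) ∣ (P.br s.1 j).2.ord (φ (P.br s.1 j).1) := fun s => by
    have := s.2
    simp only [hC, divNodes, Finset.mem_filter, Finset.mem_univ, true_and] at this
    exact this
  choose jj hjj using hC'
  choose r hr hr0 hr' using fun s : C =>
    hN₂ N (le_of_max_le_right hN) (P.br s.1 (jj s)) (P.regular _ _) (hjj s)
  -- independence modulo the glued tuples
  have hdiff : ∀ a : C → k, ∑ t, a t • r t ∈ frobFibre P p φ N → a = 0 := by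
    intro a ha
    funext s
    have hval : ∀ j, bval (P.br s.1 j) (fun i => (∑ t, a t • r t) i ^ p * φ i)
        = a s ^ p * bval (P.br s.1 j) (fun i => r s i ^ p * φ i) := by
      intro j
      have hm : ∀ t : C, r t (P.br s.1 j).1 ^ p * φ (P.br s.1 j).1
          ∈ (P.br s.1 j).2.toValuationSubring :=
        fun t => mem_branch (hr t) (P.regular _ _)
      have hsum : ∀ T : Finset C,
          ((∑ t ∈ T, a t • r t) (P.br s.1 j).1) ^ p * φ (P.br s.1 j).1
            = ∑ t ∈ T, a t ^ p • (r t (P.br s.1 j).1 ^ p * φ (P.br s.1 j).1) := by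
        intro T
        induction T using Finset.induction with
        | empty => simp [zero_pow hp.pos.ne']
        | insert t T htT ih =>
          rw [Finset.sum_insert htT, Finset.sum_insert htT, Pi.add_apply, add_pow_charPow k,
            add_mul, ih, Pi.smul_apply, smul_pow, smul_mul_assoc]
      simp only [bval]
      rw [hsum, placeValue_sum_of_mem, Finset.sum_eq_single s]
      · rw [placeValue_smul _ _ (hm s)]
      · intro t _ hts
        rw [placeValue_smul _ _ (hm t)]
        refine mul_eq_zero_of_right _ (hr' t s.1 j fun h => hts ?_)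
        have := P.br_injective (a₁ := (s.1, j)) (a₂ := (t.1, jj t)) h
        exact (Subtype.ext (Prod.ext_iff.1 this).1).symm
      · simp
      · intro t _
        rw [Algebra.smul_def]
        exact mul_mem ((P.br s.1 j).2.algebraMap_mem' _) (hm t)
    have h := ha.2 s.1
    rw [hval 0, hval 1] at h
    have hoth : ∀ j, j ≠ jj s → bval (P.br s.1 j) (fun i => r s i ^ p * φ i) = 0 := by
      intro j hj
      refine hr' s s.1 j fun h' => hj ?_
      exact (Prod.ext_iff.1 (P.br_injective (a₁ := (s.1, j)) (a₂ := (s.1, jj s)) h')).2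
    have h0 : a s ^ p * bval (P.br s.1 (jj s)) (fun i => r s i ^ p * φ i) = 0 := by
      rcases (show jj s = 0 ∨ jj s = 1 by omega) with hj | hj
      · rw [hj, h, hoth 1 (by rw [hj]; decide), mul_zero]
      · rw [hj, ← h, hoth 0 (by rw [hj]; decide), mul_zero]
    exact pow_eq_zero_iff hp.pos.ne' |>.1 ((mul_eq_zero.1 h0).resolve_right (hr0 s))
  let Φ : (frobFibre P p φ N × (C → k)) →ₗ[k] rootPolar R p φ N :=
    { toFun := fun x => ⟨x.1.1 + ∑ t, x.2 t • r t,
        add_mem (hle x.1.2) (sum_mem fun t _ => Submodule.smul_mem _ _ (hr t))⟩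
      map_add' := fun x y => Subtype.ext (by
        simp only [Prod.fst_add, Prod.snd_add, Submodule.coe_add, Pi.add_apply, add_smul,
          Finset.sum_add_distrib]
        abel)
      map_smul' := fun c x => Subtype.ext (by
        simp only [Prod.smul_fst, Prod.smul_snd, SetLike.val_smul, Pi.smul_apply, smul_eq_mul,
          RingHom.id_apply, smul_add, Finset.smul_sum, mul_smul]) }
  have hinj : Function.Injective Φ := by
    rw [← LinearMap.ker_eq_bot, LinearMap.ker_eq_bot']
    rintro ⟨⟨y, hy⟩, a⟩ h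
    have h' : y + ∑ t, a t • r t = 0 := congrArg Subtype.val h
    have ha : a = 0 := hdiff a (by
      rw [← neg_eq_of_add_eq_zero_right h']
      exact neg_mem hy)
    subst ha
    simp only [Pi.zero_apply, zero_smul, Finset.sum_const_zero, add_zero] at h'
    subst h'
    rfl
  have := LinearMap.finrank_le_finrank_of_injective hinj
  rw [Module.finrank_prod, Module.finrank_fintype_fun_eq_card, Fintype.card_coe] at this
  exact_mod_cast this

/-- Moving: with the indivisible places of `f` specialising injectively to smooth points, every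
glued bounded root tuple is a reduction, and the two sides of every node agree modulo `p`. -/
theorem exists_slotFibre_eq (hA : RankLeOne A) (P : NodePairs R S) {c d : ι → K} {f : F}
    {φ : ∀ i, Fb i} (hc : IsSlot R c f φ) (hφ : ∀ i, φ i ≠ 0)
    (hd : ∀ i, d i ^ p * c i = 1) (T : Finset (Σ i, Place k (Fb i)))
    (hT : ∀ b ∈ T, ¬ (p : ℤ) ∣ b.2.ord (φ b.1) ∧ ∀ s j, P.br s j ≠ b)
    (hsep : (indivisible p (divisorOf K f)).card ≤ T.card) :
    (∃ N₀ : ℕ, ∀ N, N₀ ≤ N →
      slotFibre (R := R) d (rootSp p (N • R.poleX) f) = frobFibre P p φ N) ∧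
    (∀ s j j', (p : ℤ) ∣ (P.br s j).2.ord (φ (P.br s j).1) →
      (p : ℤ) ∣ (P.br s j').2.ord (φ (P.br s j').1)) ∧
    ∀ b : Σ i, Place k (Fb i), b ∉ T → (∀ s j, P.br s j ≠ b) →
      (p : ℤ) ∣ b.2.ord (φ b.1) := by
  classical
  haveI := R.isAlgClosed_residue
  obtain ⟨N₁, hN₁⟩ := exists_finrank_rootPolar R (p := p) φ
  obtain ⟨N₂, hN₂⟩ := exists_finrank_rootPolar R (p := p) φ⁻¹
  obtain ⟨N₃, hN₃⟩ := exists_finrank_frobFibre_le (p := p) P φ hφ
  have hφ' : ∀ i, φ⁻¹ i ≠ 0 := fun i => inv_ne_zero (hφ i)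
  obtain ⟨N₄, hN₄⟩ := exists_finrank_frobFibre_le (p := p) P φ⁻¹ hφ'
  have hd0 : ∀ i, d i ≠ 0 := fun i h => by
    have := hd i; rw [h, zero_pow hp.pos.ne', zero_mul] at this; exact zero_ne_one this
  have key : ∀ N, max (max N₁ N₂) (max N₃ N₄) ≤ N →
      slotFibre (R := R) d (rootSp p (N • R.poleX) f) = frobFibre P p φ N ∧
      ((divNodes P p φ).filter fun s =>
        ∃ j, ¬ (p : ℤ) ∣ (P.br s j).2.ord (φ (P.br s j).1)) = ∅ ∧
      ∀ b : Σ i, Place k (Fb i), b ∉ T → (∀ s j, P.br s j ≠ b) →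
        (p : ℤ) ∣ b.2.ord (φ b.1) := by
    intro N hN
    simp only [max_le_iff] at hN
    have lower : ∀ (g : F) (b : ι → K), (∀ i, b i ≠ 0) →
        (N : ℤ) * ∑ i, (Module.finrank k⟮R.xb i⟯ (Fb i) : ℤ)
          + Divisor.degree (floorDiv p (divisorOf K g)) + 1 - (genusFF K F : ℤ)
        ≤ (Module.finrank k (slotFibre (R := R) b (rootSp p (N • R.poleX) g)) : ℤ) := by
      intro g b hb
      haveI : FiniteDimensional K (rootSp p (N • R.poleX) g) := finite_L _
      rw [finrank_slotFibre R hA b hb]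
      have := le_finrank_L (N • R.poleX + floorDiv p (divisorOf K g))
      rw [map_add, R.degree_nsmul_poleX, Nat.cast_mul, Nat.cast_sum] at this
      exact this
    have hle := slotFibre_le (P := P) (N := N) hc hφ hd
    have hle' := slotFibre_le (P := P) (N := N) (hc.inv hφ) hφ'
      (d := d⁻¹) (fun i => by rw [Pi.inv_apply, Pi.inv_apply, inv_pow, ← mul_inv, hd i, inv_one])
    haveI := (hN₃ N hN.2.1).1
    haveI := (hN₄ N hN.2.2).1
    have a1 := Submodule.finrank_mono hle
    have a2 := Submodule.finrank_mono hle'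
    have b1 := lower f d hd0
    have b2 := lower f⁻¹ d⁻¹ fun i => inv_ne_zero (hd0 i)
    have c1 := (hN₃ N hN.2.1).2
    have c2 := (hN₄ N hN.2.2).2
    have d1 := (hN₁ N hN.1.1).2
    have d2 := (hN₂ N hN.1.2).2
    have e0 : ∀ i, divisorOf k (φ⁻¹ i) = -divisorOf k (φ i) := fun i =>
      Finsupp.ext fun v => by simp [Place.ord_inv]
    have e0' : divisorOf K f⁻¹ = -divisorOf K f := Finsupp.ext fun v => by simp [Place.ord_inv]
    have eC : divNodes P p φ⁻¹ = divNodes P p φ := by
      ext s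
      simp [divNodes, Place.ord_inv]
    have e1 := degree_floorDiv_add_neg hp.pos (divisorOf K f)
    have e2 : ∑ i, Divisor.degree (floorDiv p (divisorOf k (φ i)))
        + ∑ i, Divisor.degree (floorDiv p (divisorOf k (φ⁻¹ i)))
          = -((∑ i, (indivisible p (divisorOf k (φ i))).card : ℕ) : ℤ) := by
      rw [← Finset.sum_add_distrib, Nat.cast_sum, ← Finset.sum_neg_distrib]
      exact Finset.sum_congr rfl fun i _ => by
        rw [e0]; exact degree_floorDiv_add_neg hp.pos _
    have e3 := card_indivisible_le_of_sep φ T hT (P := P)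
    have e4 := P.count
    have e5 : (divNodes P p φ).card ≤ Fintype.card S := Finset.card_le_univ _
    rw [e0'] at b2
    rw [eC] at c2
    refine ⟨Submodule.eq_of_le_of_finrank_le hle ?_, Finset.card_eq_zero.1 ?_, fun b hbT hbs => ?_⟩
    · omega
    · omega
    · by_contra hb
      have e6 := card_indivisible_le_of_sep φ (insert b T) (P := P) (fun b' hb' =>
        (Finset.mem_insert.1 hb').elim (fun h => h ▸ ⟨hb, hbs⟩) (hT b'))
      rw [Finset.card_insert_of_notMem hbT] at e6
      omega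
  refine ⟨⟨_, fun N hN => (key N hN).1⟩, fun s j j' hj => ?_, (key _ le_rfl).2.2⟩
  by_contra hj'
  have := (key _ le_rfl).2.1
  rw [Finset.filter_eq_empty_iff] at this
  exact this (Finset.mem_filter.2 ⟨Finset.mem_univ _, j, hj⟩) ⟨j', hj'⟩

/-- A glued root tuple which is non-zero at a given node and vanishes at the other nodes. -/
theorem exists_mem_frobFibre_node (P : NodePairs R S) (φ : ∀ i, Fb i) (hφ : ∀ i, φ i ≠ 0) :
    ∃ N₀ : ℕ, ∀ N, N₀ ≤ N → ∀ s,
      (∀ j, (p : ℤ) ∣ (P.br s j).2.ord (φ (P.br s j).1)) →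
      ∃ r ∈ frobFibre P p φ N, ∀ t j,
        bval (P.br t j) (fun i => r i ^ p * φ i) ≠ 0 ↔ t = s := by
  classical
  haveI := R.isAlgClosed_residue
  obtain ⟨N₀, hN₀⟩ := exists_single_value (p := p) P φ hφ
  refine ⟨N₀, fun N hN s hs => ?_⟩
  choose r hr hr0 hr' using fun j => hN₀ N hN (P.br s j) (P.regular _ _) (hs j)
  set v := fun j => bval (P.br s j) (fun i => r j i ^ p * φ i)
  obtain ⟨β, hβ⟩ := IsAlgClosed.exists_pow_nat_eq (v 0 / v 1) hp.pos
  set a : Fin 2 → k := ![1, β] with ha
  have ha0 : ∀ j, a j ^ p * v j = v 0 := by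
    refine Fin.forall_fin_two.2 ⟨by simp [ha], ?_⟩
    simp only [ha, Matrix.cons_val_one, Matrix.cons_val_zero, hβ]
    rw [div_mul_cancel₀ _ (hr0 1)]
  set R₂ := a 0 • r 0 + a 1 • r 1 with hR₂
  have hR₂p : R₂ ∈ rootPolar R p φ N :=
    add_mem (Submodule.smul_mem _ _ (hr 0)) (Submodule.smul_mem _ _ (hr 1))
  have hval : ∀ t j, bval (P.br t j) (fun i => R₂ i ^ p * φ i)
      = if t = s then v 0 else 0 := by
    intro t j
    have hm : ∀ l, r l (P.br t j).1 ^ p * φ (P.br t j).1 ∈ (P.br t j).2.toValuationSubring :=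
      fun l => mem_branch (hr l) (P.regular _ _)
    have hm' : ∀ l, a l ^ p • (r l (P.br t j).1 ^ p * φ (P.br t j).1)
        ∈ (P.br t j).2.toValuationSubring := fun l => by
      rw [Algebra.smul_def]; exact mul_mem ((P.br t j).2.algebraMap_mem' _) (hm l)
    have e : R₂ (P.br t j).1 ^ p * φ (P.br t j).1
        = a 0 ^ p • (r 0 (P.br t j).1 ^ p * φ (P.br t j).1)
          + a 1 ^ p • (r 1 (P.br t j).1 ^ p * φ (P.br t j).1) := by
      rw [hR₂, Pi.add_apply, add_pow_charPow k, add_mul, Pi.smul_apply, Pi.smul_apply, smul_pow,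
        smul_pow, smul_mul_assoc, smul_mul_assoc]
    have h2 : bval (P.br t j) (fun i => R₂ i ^ p * φ i)
        = a 0 ^ p * bval (P.br t j) (fun i => r 0 i ^ p * φ i)
          + a 1 ^ p * bval (P.br t j) (fun i => r 1 i ^ p * φ i) := by
      simp only [bval]
      rw [e, placeValue_add _ (hm' 0) (hm' 1), placeValue_smul _ _ (hm 0),
        placeValue_smul _ _ (hm 1)]
    rw [h2]
    split_ifs with hts
    · subst hts
      have hz : ∀ l, l ≠ j → bval (P.br t j) (fun i => r l i ^ p * φ i) = 0 :=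
        fun l hl => hr' l t j fun h => hl
          (Prod.ext_iff.1 (P.br_injective (a₁ := (t, j)) (a₂ := (t, l)) h)).2.symm
      rcases (show j = 0 ∨ j = 1 by omega) with rfl | rfl
      · rw [hz 1 (by decide), mul_zero, add_zero]; exact ha0 0
      · rw [hz 0 (by decide), mul_zero, zero_add]; exact ha0 1
    · have hz : ∀ l, bval (P.br t j) (fun i => r l i ^ p * φ i) = 0 :=
        fun l => hr' l t j fun h => hts
          (Prod.ext_iff.1 (P.br_injective (a₁ := (t, j)) (a₂ := (s, l)) h)).1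
      rw [hz 0, hz 1, mul_zero, mul_zero, add_zero]
  refine ⟨R₂, ⟨hR₂p, fun t => by rw [hval, hval]⟩, fun t j => ?_⟩
  rw [hval]
  split_ifs with hts
  · exact iff_of_true (hr0 0) hts
  · exact iff_of_false (fun h => h rfl) hts

end

section

variable {K : Type uK} [Field K] {A : ValuationSubring K}
  {F : Type uF} [Field F] [Algebra K F] {ι : Type uι} [Fintype ι]
  {k : Type uk} [Field k] {Fb : ι → Type uFb} [∀ i, Field (Fb i)] [∀ i, Algebra k (Fb i)]
  {R : MultiReduction A F k Fb} (D : Descent R)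
  [IsAlgClosed K] [IsFunctionFieldOne K F] [∀ i, IsFunctionFieldOne k (Fb i)]
  {S : Type uS} [Fintype S] {p : ℕ} [hp : CharPow k p]

/-- At a node where `p` divides both orders the valuations agree modulo `p`. -/
theorem dvd_sub_of_node (hA : RankLeOne A) (P : NodePairs R S) {f : F}
    {n : ι → ℤ} {φ : ∀ i, Fb i} (hf : HasVal D f n φ)
    (hspan : ∀ N : ℕ, rootSp p (N • R.poleX) f
      ≤ Submodule.span K ((rootSp p (N • R.poleX) f : Set F) ∩ D.F0))
    (T : Finset (Σ i, Place k (Fb i)))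
    (hT : ∀ b ∈ T, ¬ (p : ℤ) ∣ b.2.ord (φ b.1) ∧ ∀ s j, P.br s j ≠ b)
    (hsep : (indivisible p (divisorOf K f)).card ≤ T.card) (s : S)
    (htwo : ∀ i, i = (P.br s 0).1 ∨ i = (P.br s 1).1)
    (hs : (p : ℤ) ∣ (P.br s 0).2.ord (φ (P.br s 0).1)) :
    (p : ℤ) ∣ n (P.br s 0).1 - n (P.br s 1).1 := by
  haveI := R.isAlgClosed_residue
  by_contra hcon
  obtain ⟨ρ, hρ⟩ := IsAlgClosed.exists_pow_nat_eq D.ϖ hp.pos
  have hd : ∀ i, (ρ ^ n i) ^ p * (D.ϖ ^ n i)⁻¹ = 1 := fun i => by
    rw [← zpow_natCast (ρ ^ n i) p, ← zpow_mul, mul_comm (n i) (p : ℤ), zpow_mul, zpow_natCast, hρ,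
      mul_inv_cancel₀ (zpow_ne_zero _ D.ϖ_ne_zero)]
  obtain ⟨⟨N₁, hN₁⟩, hsides, -⟩ :=
    exists_slotFibre_eq (p := p) hA P hf.slot hf.ne_zero hd T hT hsep
  obtain ⟨N₂, hN₂⟩ := exists_mem_frobFibre_node (p := p) P φ hf.ne_zero
  obtain ⟨r, hr, hr0⟩ := hN₂ (max N₁ N₂) (le_max_right _ _) s fun j => hsides s 0 j hs
  rw [← hN₁ _ (le_max_left _ _)] at hr
  haveI : FiniteDimensional K (rootSp p (max N₁ N₂ • R.poleX) f) := finite_L _
  obtain ⟨r', hr', hz, hsame⟩ :=
    (exists_fixed_component D hA hp.pos hρ n htwo _ (hspan _) hr).2 hcon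
  rw [hN₁ _ (le_max_left _ _)] at hr'
  have h := hr'.2 s
  simp only [bval] at h
  rw [hz, hsame, zero_pow hp.pos.ne', zero_mul, placeValue_zero] at h
  exact (hr0 s 1).2 rfl h.symm

end

end Fermat.Agent.MazurPrinciple2.Move

end
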