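/-
Mazur's principle at `3`: `9` does not divide the order of `j` at a supersingular place of
`X₀(M)` in characteristic `3`, `3 ∤ M`.

The moving lemma holds for roots of order a power of the characteristic.  For the unit
`Δ(qτ)/Δ(τ)`, of valuations `0, -12` and reduction `j⁻²`, it gives that every zero of `j` is at a
node and that `9` does not divide the order there.
-/
import Fermat.Agent.MazurPrinciple.NodesUnitData
import Fermat.Agent.MazurPrinciple2.PowMove

set_option autoImplicit false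
set_option linter.style.haveILetI false
set_option synthInstance.maxHeartbeats 400000
set_option maxHeartbeats 1600000

noncomputable section

namespace Fermat.Agent.MazurPrinciple2

open ModularCurve AlgebraicCurve IsLocalRing
open Fermat.Agent.BadReduction Fermat.Agent.MazurPrinciple
open Fermat.Agent.Curve (divisorOf divisorOf_apply)
open Fermat.Agent.Curve.RedAux (finite_L)
open Fermat.Agent.MazurPrinciple.Move (indivisible mem_indivisible rootSp)
open Fermat.Agent.Igusa.Fibre (deltaS deltaInvS deltaS_mul_deltaInvS)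
open Fermat.Agent.Bad

local notation "ℚbar" => AlgebraicClosure ℚ

variable {M : ℕ} [NeZero M] [h3 : Fact (Nat.Prime 3)]

local instance neZero_three_powOrd : NeZero 3 := ⟨by norm_num⟩

omit h3 in
/-- In characteristic `3` the expansion of `j` is `1 / Δ`. -/
theorem jqModC_eq_deltaInvS (k : Type*) [Field k] [CharP k 3] : jqModC k = deltaInvS k := by
  have h240 : ((240 : ℤ) : k) = 0 := (CharP.intCast_eq_zero_iff k 3 240).2 (by norm_num)
  have hE : eisenstein4.map (Int.castRingHom k) = 1 := by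
    ext n
    rw [PowerSeries.coeff_map, eisenstein4, PowerSeries.coeff_mk, PowerSeries.coeff_one]
    split_ifs with h
    · simp
    · rw [eq_intCast, Int.cast_mul, h240, zero_mul]
  rw [jqModC, deltaInvS, jNum, map_mul, map_pow, hE, one_pow, one_mul]

/-- In characteristic `3` the modular unit reduces to `j ⁻²`. -/
theorem unitRed_eq (hM : ¬ 3 ∣ M) {A : ValuationSubring ℚbar} (hA : A.LiesOverPrime 3)
    [CharP (ResidueField A) 3] :
    unitRed hM hA = (resJ (ResidueField A) M)⁻¹ ^ 2 := by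
  refine Subtype.ext ?_
  rw [unitRed, coe_compPhi_zero_modUnit_eq_pow hM A hA, IntermediateField.coe_pow,
    IntermediateField.coe_inv]
  show deltaS (ResidueField A) ^ (3 - 1) = (jqModC (ResidueField A))⁻¹ ^ 2
  rw [jqModC_eq_deltaInvS, inv_eq_of_mul_eq_one_left (deltaS_mul_deltaInvS (R := ResidueField A))]

/-- The order of the reduced modular unit is `- 2` times that of `j`. -/
theorem ord_unitRed (hM : ¬ 3 ∣ M) {A : ValuationSubring ℚbar} (hA : A.LiesOverPrime 3)
    (v : Place (ResidueField A) (X0Res M A)) :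
    v.ord (unitRed hM hA) = -(2 * v.ord (resJ (ResidueField A) M)) := by
  haveI := charP_residue_of_liesOverPrime h3.out hA
  rw [unitRed_eq hM hA, Curve.ord_pow v, v.ord_inv]
  push_cast
  ring

variable {A : ValuationSubring ℚbar} (hA : A.LiesOverPrime 3) {H : Subgroup (ℚbar ≃ₐ[ℚ] ℚbar)}
  (hH : H ≤ A.inertiaSubgroupIn ℚ) (U : Uniformiser A 3 H)

/-- The root spaces of any order of fixed functions are spanned by fixed functions. -/
theorem spannedByFixed_pow (hM : ¬ 3 ∣ M) (Q : ℕ) (f : (x0Descent hM hA hH U).F0) (N : ℕ) :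
    rootSp Q (N • (x0Reduction hM A hA).poleX) (f : X0F M 3) ≤
      Submodule.span ℚbar ((rootSp Q (N • (x0Reduction hM A hA).poleX) (f : X0F M 3) :
        Set (X0F M 3)) ∩ (x0Descent hM hA hH U).F0) := by
  haveI : FiniteDimensional ℚbar (rootSp Q (N • (x0Reduction hM A hA).poleX) (f : X0F M 3)) :=
    finite_L _
  refine le_span_fixedFun _ fun σ hσ v hv => ?_
  refine Eq.mp ?_ (galois_smul_mem_L σ hv)
  have hf : arithmeticGalois (modularFunctionFieldFull (M * 3)) σ • (f : X0F M 3) = f :=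
    mem_fixedFun.1 f.2 σ hσ
  congr 1
  unfold Fermat.Agent.MazurPrinciple.Move.rootSp
  congr 1
  refine Finsupp.ext fun w => ?_
  rw [smul_add, smul_comm _ N, MultiReduction.poleX,
    smul_poleDivisor_of_fixed σ (g := (x0Reduction hM A hA).x) (galois_smul_x0Fun hM σ),
    Finsupp.add_apply, Finsupp.add_apply, SemilinearAut.divisor_smul_apply,
    MazurPrinciple.Move.floorDiv_apply, MazurPrinciple.Move.floorDiv_apply, divisorOf_apply,
    divisorOf_apply, ← ord_galois_smul, hf]

include hA in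
/-- The indivisible places of the modular unit are cusps, at most as many as the cuspidal
branches. -/
theorem card_indivisible_modUnit_pow (hM : ¬ 3 ∣ M) (Q : ℕ) :
    (indivisible Q (divisorOf ℚbar (modUnit M 3 : X0F M 3))).card ≤
      (cuspBranches hM hA).card := by
  classical
  have hcusp : cuspCount (M * 3) = 2 * cuspCount M := by
    rw [mul_comm M 3]; exact Carayol.LTwoComp.cuspCount_prime_mul h3.out hM
  have hbar : Carayol.LTwoComp.barJ (M * 3) = Igusa.jBar (M * 3) :=
    Subtype.ext (Igusa.coe_jBar' (M * 3)).symm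
  have hfin : {v : Place ℚbar (X0F M 3) | v.ord (Igusa.jBar (M * 3)) < 0}.Finite :=
    (Curve.finite_setOf_ord_ne_zero (K := ℚbar) (Igusa.jBar (M * 3))).subset
      fun _ hv => ne_of_lt hv
  have hsub : indivisible Q (divisorOf ℚbar (modUnit M 3 : X0F M 3)) ⊆ hfin.toFinset := by
    intro v hv
    rw [Set.Finite.mem_toFinset]
    by_contra hcon
    rw [mem_indivisible, divisorOf_apply, ord_modUnit_eq_zero M 3 v (not_lt.1 hcon)] at hv
    exact hv (dvd_zero _)
  refine (Finset.card_le_card hsub).trans ?_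
  have hcard : hfin.toFinset.card = cuspCount (M * 3) := by
    rw [← Set.ncard_eq_toFinset_card _ hfin, ← (Carayol.LTwoComp.bar_ramification (M * 3)).2,
      hbar]
  rw [hcard, hcusp, cuspBranches, Finset.card_sigma, Finset.sum_const, Finset.card_univ,
    Fintype.card_fin, smul_eq_mul]
  exact Nat.mul_le_mul_left 2 (exists_residual_cusps hM A hA).choose_spec.1

omit hA hH U in
/-- The order of `j` at a branch of a node is not divisible by `9`. -/
theorem not_nine_dvd_ord_resJ_br (hM : ¬ 3 ∣ M) (A : ValuationSubring ℚbar)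
    (hA : A.LiesOverPrime 3) (s : x0NodeSet hM A hA) (j : Fin 2) :
    ¬ (9 : ℤ) ∣ ((x0NodePairs hM A hA).br s j).2.ord (resJ (ResidueField A) M) := by
  classical
  intro h9
  haveI := charP_residue_of_liesOverPrime h3.out hA
  haveI := (x0Reduction hM A hA).isAlgClosed_residue
  obtain ⟨U₁, hU₁⟩ := exists_uniformiser h3.out hA (A.inertiaSubgroupIn ℚ) 1 fun c hc =>
    ⟨{c}, Finset.mem_singleton_self c, le_of_eq (Finset.card_singleton c),
      fun σ hσ => Finset.mem_singleton.2 (hc σ hσ)⟩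
  have he : U₁.e = 1 := le_antisymm hU₁ U₁.e_pos
  obtain ⟨hval, h0, h1⟩ := unitBar_spec hM hA le_rfl U₁
  have hφ : ∀ (i : Fin 2) (v : Place (ResidueField A) (X0Res M A)),
      (9 : ℤ) ∣ v.ord (resJ (ResidueField A) M) →
        ((9 : ℕ) : ℤ) ∣ v.ord (unitBar hM hA le_rfl U₁ i) := by
    intro i v hv
    fin_cases i
    · show _ ∣ v.ord (unitBar hM hA le_rfl U₁ 0)
      rw [h0, ord_unitRed hM hA v]
      exact (hv.mul_left 2).neg_right
    · show _ ∣ v.ord (unitBar hM hA le_rfl U₁ 1)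
      rw [h1, ord_unitRed hM hA v, neg_neg]
      exact hv.mul_left 2
  have hrank := Mazur.rankLeOne_of_liesOverPrime h3.out hA
  haveI : Move.CharPow (ResidueField A) 9 := ⟨3, 2, h3.out, inferInstance, by norm_num⟩
  have hT : ∀ b ∈ cuspBranches hM hA,
      ¬ ((9 : ℕ) : ℤ) ∣ b.2.ord (unitBar hM hA le_rfl U₁ b.1) ∧
        ∀ t l, (x0NodePairs hM A hA).br t l ≠ b := by
    intro b hb
    obtain ⟨h1', h2⟩ := mem_cuspBranches hM hA le_rfl U₁ b hb
    exact ⟨fun h => h1' ((by norm_num : ((3 : ℕ) : ℤ) ∣ ((9 : ℕ) : ℤ)).trans h), h2⟩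
  obtain ⟨ρ, hρ⟩ := IsAlgClosed.exists_pow_nat_eq (x0Descent hM hA le_rfl U₁).ϖ
    (show 0 < 9 by norm_num)
  have hd : ∀ i : Fin 2, (ρ ^ unitVal U₁ i) ^ 9 *
      ((x0Descent hM hA le_rfl U₁).ϖ ^ unitVal U₁ i)⁻¹ = 1 := fun i => by
    rw [← zpow_natCast (ρ ^ unitVal U₁ i) 9, ← zpow_mul,
      mul_comm (unitVal U₁ i) ((9 : ℕ) : ℤ), zpow_mul, zpow_natCast, hρ,
      mul_inv_cancel₀ (zpow_ne_zero _ (x0Descent hM hA le_rfl U₁).ϖ_ne_zero)]
  -- both branches of the node then have orders divisible by `9`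
  obtain ⟨-, hsides, -⟩ := Move.exists_slotFibre_eq (p := 9) hrank (x0NodePairs hM A hA)
    hval.slot hval.ne_zero hd (cuspBranches hM hA) hT
    (card_indivisible_modUnit_pow hA hM 9)
  have key := Move.dvd_sub_of_node (p := 9) (x0Descent hM hA le_rfl U₁) hrank
    (x0NodePairs hM A hA) hval
    (spannedByFixed_pow hA le_rfl U₁ hM 9 ⟨modUnit M 3, modUnit_mem_F0 hM hA le_rfl U₁⟩)
    (cuspBranches hM hA) hT (card_indivisible_modUnit_pow hA hM 9) s
    (x0NodePairs_htwo hM A hA s)
    (hsides s j 0 (hφ _ _ h9))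
  rw [x0NodePairs_br_fst hM A hA s 0, x0NodePairs_br_fst hM A hA s 1] at key
  revert key
  simp [unitVal, he]

omit hA hH U in
/-- The order of `j` at a zero is not divisible by `9`. -/
theorem not_nine_dvd_ord_resJ (hM : ¬ 3 ∣ M) (A : ValuationSubring ℚbar) (hA : A.LiesOverPrime 3)
    {v : Place (ResidueField A) (X0Res M A)} (hv : 0 < v.ord (resJ (ResidueField A) M)) :
    ¬ (9 : ℤ) ∣ v.ord (resJ (ResidueField A) M) := by
  classical
  intro h9
  haveI := charP_residue_of_liesOverPrime h3.out hA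
  haveI := (x0Reduction hM A hA).isAlgClosed_residue
  obtain ⟨U₁, hU₁⟩ := exists_uniformiser h3.out hA (A.inertiaSubgroupIn ℚ) 1 fun c hc =>
    ⟨{c}, Finset.mem_singleton_self c, le_of_eq (Finset.card_singleton c),
      fun σ hσ => Finset.mem_singleton.2 (hc σ hσ)⟩
  obtain ⟨hval, h0, -⟩ := unitBar_spec hM hA le_rfl U₁
  have hφ : v.ord (unitBar hM hA le_rfl U₁ 0) = -(2 * v.ord (resJ (ResidueField A) M)) := by
    rw [h0]
    exact ord_unitRed hM hA v
  have hrank := Mazur.rankLeOne_of_liesOverPrime h3.out hA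
  have hT : ∀ m, 0 < m → ∀ b ∈ cuspBranches hM hA,
      ¬ ((3 ^ m : ℕ) : ℤ) ∣ b.2.ord (unitBar hM hA le_rfl U₁ b.1) ∧
        ∀ s j, (x0NodePairs hM A hA).br s j ≠ b := by
    intro m hm b hb
    obtain ⟨h1, h2⟩ := mem_cuspBranches hM hA le_rfl U₁ b hb
    exact ⟨fun h => h1 ((Int.natCast_dvd_natCast.2 (dvd_pow_self 3 hm.ne')).trans h), h2⟩
  have hnotT : ∀ i : Fin 2, (⟨i, v⟩ : Σ _ : Fin 2, Place (ResidueField A) (X0Res M A)) ∉
      cuspBranches hM hA := by
    intro i hmem
    have h : v.ord (resJ (ResidueField A) M) < 0 :=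
      ((exists_residual_cusps hM A hA).choose_spec.2 v (Finset.mem_sigma.1 hmem).2).1
    omega
  by_cases hnode : ∀ s j, (x0NodePairs hM A hA).br s j ≠ ⟨0, v⟩
  · -- a smooth zero: the order is divisible by all powers of `3`
    obtain ⟨m, hm⟩ : ∃ m : ℕ, (v.ord (resJ (ResidueField A) M) * 2).natAbs < 3 ^ m :=
      ⟨_, Nat.lt_pow_self (by norm_num)⟩
    have hm0 : 0 < m := by
      rcases Nat.eq_zero_or_pos m with rfl | h
      · rw [pow_zero] at hm
        omega
      · exact h
    haveI : Move.CharPow (ResidueField A) (3 ^ m) := ⟨3, m, h3.out, inferInstance, rfl⟩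
    obtain ⟨ρ, hρ⟩ := IsAlgClosed.exists_pow_nat_eq (x0Descent hM hA le_rfl U₁).ϖ
      (pow_pos (show 0 < 3 by norm_num) m)
    have hd : ∀ i : Fin 2, (ρ ^ unitVal U₁ i) ^ (3 ^ m) *
        ((x0Descent hM hA le_rfl U₁).ϖ ^ unitVal U₁ i)⁻¹ = 1 := fun i => by
      rw [← zpow_natCast (ρ ^ unitVal U₁ i) (3 ^ m), ← zpow_mul,
        mul_comm (unitVal U₁ i) ((3 ^ m : ℕ) : ℤ), zpow_mul, zpow_natCast, hρ,
        mul_inv_cancel₀ (zpow_ne_zero _ (x0Descent hM hA le_rfl U₁).ϖ_ne_zero)]
    obtain ⟨-, -, hsmooth⟩ := Move.exists_slotFibre_eq (p := 3 ^ m) hrank (x0NodePairs hM A hA)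
      hval.slot hval.ne_zero hd (cuspBranches hM hA) (hT m hm0)
      (card_indivisible_modUnit_pow hA hM _)
    have h : ((3 ^ m : ℕ) : ℤ) ∣ v.ord (unitBar hM hA le_rfl U₁ 0) :=
      hsmooth ⟨0, v⟩ (hnotT 0) hnode
    rw [hφ, dvd_neg] at h
    have h' := Int.natAbs_dvd_natAbs.2 h
    rw [Int.natAbs_natCast, mul_comm] at h'
    have := Nat.le_of_dvd (by omega) h'
    omega
  · -- a node
    push Not at hnode
    obtain ⟨s, j, hsj⟩ := hnode
    refine not_nine_dvd_ord_resJ_br hM A hA s j ?_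
    rw [hsj]
    exact h9

end Fermat.Agent.MazurPrinciple2

end
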