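/-
Mazur's principle at `3`: `j` has a zero or a pole at every branch at a node of the special fibre
of `X₀(3 M)`: otherwise the moving lemma with roots of order `9` for the modular unit, of
valuations `0, -12`, would give `9 ∣ 12`.
-/
import Fermat.Agent.MazurPrinciple2.PowOrd

set_option autoImplicit false
set_option linter.style.haveILetI false
set_option synthInstance.maxHeartbeats 400000
set_option maxHeartbeats 800000

noncomputable section

namespace Fermat.Agent.MazurPrinciple2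

open ModularCurve AlgebraicCurve IsLocalRing
open Fermat.Agent.BadReduction Fermat.Agent.MazurPrinciple

local notation "ℚbar" => AlgebraicClosure ℚ

variable {M : ℕ} [NeZero M] [h3 : Fact (Nat.Prime 3)]

/-- No node lies over a finite non-zero value of `j`. -/
theorem ord_resJ_ne_zero_of_node (hM : ¬ 3 ∣ M) (A : ValuationSubring ℚbar)
    (hA : A.LiesOverPrime 3) (s : x0NodeSet hM A hA) (j : Fin 2) :
    ((x0NodePairs hM A hA).br s j).2.ord (resJ (ResidueField A) M) ≠ 0 := by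
  classical
  intro h0j
  haveI := charP_residue_of_liesOverPrime h3.out hA
  haveI := (x0Reduction hM A hA).isAlgClosed_residue
  obtain ⟨U₁, hU₁⟩ := exists_uniformiser h3.out hA (A.inertiaSubgroupIn ℚ) 1 fun c hc =>
    ⟨{c}, Finset.mem_singleton_self c, le_of_eq (Finset.card_singleton c),
      fun σ hσ => Finset.mem_singleton.2 (hc σ hσ)⟩
  have he : U₁.e = 1 := le_antisymm hU₁ U₁.e_pos
  obtain ⟨hval, h0, h1⟩ := unitBar_spec hM hA le_rfl U₁
  have hrank := Mazur.rankLeOne_of_liesOverPrime h3.out hA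
  haveI : Move.CharPow (ResidueField A) 9 := ⟨3, 2, h3.out, inferInstance, by norm_num⟩
  have hT : ∀ b ∈ cuspBranches hM hA, ¬ ((9 : ℕ) : ℤ) ∣ b.2.ord (unitBar hM hA le_rfl U₁ b.1) ∧
      ∀ s j, (x0NodePairs hM A hA).br s j ≠ b := fun b hb => by
    obtain ⟨hb1, hb2⟩ := mem_cuspBranches hM hA le_rfl U₁ b hb
    exact ⟨fun h => hb1 ((Int.natCast_dvd_natCast.2 (by norm_num : (3 : ℕ) ∣ 9)).trans h), hb2⟩
  obtain ⟨ρ, hρ⟩ := IsAlgClosed.exists_pow_nat_eq (x0Descent hM hA le_rfl U₁).ϖ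
    (show 0 < 9 by norm_num)
  have hd : ∀ i : Fin 2, (ρ ^ unitVal U₁ i) ^ (9 : ℕ) *
      ((x0Descent hM hA le_rfl U₁).ϖ ^ unitVal U₁ i)⁻¹ = 1 := fun i => by
    rw [← zpow_natCast (ρ ^ unitVal U₁ i) 9, ← zpow_mul, mul_comm (unitVal U₁ i) ((9 : ℕ) : ℤ),
      zpow_mul, zpow_natCast, hρ,
      mul_inv_cancel₀ (zpow_ne_zero _ (x0Descent hM hA le_rfl U₁).ϖ_ne_zero)]
  obtain ⟨-, hsides, -⟩ := Move.exists_slotFibre_eq (p := 9) hrank (x0NodePairs hM A hA)
    hval.slot hval.ne_zero hd (cuspBranches hM hA) hT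
    (card_indivisible_modUnit_pow hA hM 9)
  have hj : ((9 : ℕ) : ℤ) ∣ ((x0NodePairs hM A hA).br s j).2.ord
      (unitBar hM hA le_rfl U₁ ((x0NodePairs hM A hA).br s j).1) := by
    have hu : ((x0NodePairs hM A hA).br s j).2.ord (unitRed hM hA) = 0 := by
      rw [ord_unitRed hM hA, h0j]; ring
    rw [x0NodePairs_br_fst hM A hA s j]
    fin_cases j
    · show ((9 : ℕ) : ℤ) ∣ ((x0NodePairs hM A hA).br s 0).2.ord (unitBar hM hA le_rfl U₁ 0)
      rw [h0]
      exact hu.symm ▸ dvd_zero _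
    · show ((9 : ℕ) : ℤ) ∣ ((x0NodePairs hM A hA).br s 1).2.ord (unitBar hM hA le_rfl U₁ 1)
      rw [h1, show ((x0NodePairs hM A hA).br s 1).2.ord (unitRed hM hA) = 0 from hu, neg_zero]
      exact dvd_zero _
  have key := Move.dvd_sub_of_node (p := 9) (x0Descent hM hA le_rfl U₁) hrank
    (x0NodePairs hM A hA) hval
    (spannedByFixed_pow hA le_rfl U₁ hM 9 ⟨modUnit M 3, modUnit_mem_F0 hM hA le_rfl U₁⟩)
    (cuspBranches hM hA) hT (card_indivisible_modUnit_pow hA hM 9) s
    (x0NodePairs_htwo hM A hA s) (hsides s j 0 hj)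
  rw [x0NodePairs_br_fst hM A hA s 0, x0NodePairs_br_fst hM A hA s 1] at key
  revert key
  simp [unitVal, he]

end Fermat.Agent.MazurPrinciple2

end
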