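/-
Mazur's principle at `3`: pulling functions on `X₀(M q)` back to `X₀(M' q)`, `M ∣ M'`.

Both the inclusion of the function fields and that of the residual fields are inclusions of
fields of series, the former commutes with `w_q`.
-/
import Fermat.Agent.MazurPrinciple.X0Cusps
import Fermat.Agent.MazurPrinciple.NodesX0
import Fermat.Agent.Residual.LowerUnitOrd

set_option autoImplicit false
set_option linter.style.haveILetI false
set_option synthInstance.maxHeartbeats 400000
set_option maxHeartbeats 1600000

noncomputable section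

namespace Fermat.Agent.MazurPrinciple2

open ModularCurve AlgebraicCurve IsLocalRing
open Fermat.Agent.BadReduction Fermat.Agent.MazurPrinciple

local notation "ℚbar" => AlgebraicClosure ℚ
local notation "Γℚ" => AlgebraicClosure ℚ ≃ₐ[ℚ] AlgebraicClosure ℚ

section Generic

variable {K : Type*} [Field K]

variable {E E' : IntermediateField K (LaurentSeries K)} (hle : E ≤ E') (hE : E ≤ Carayol.finFrac K)
  (hE' : E' ≤ Carayol.finFrac K) (A : ValuationSubring K)

/-- The inclusion respects the Gauss valuation. -/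
theorem inclusion_mem_gaussVal {x : E} (hx : x ∈ gaussVal E hE A) :
    IntermediateField.inclusion hle x ∈ gaussVal E' hE' A :=
  (mem_gaussVal_iff E' hE' A).2 ((mem_gaussVal_iff E hE A).1 hx)

/-- The inclusion respects the Gauss reduction. -/
theorem gaussValRed_inclusion {x : E} (hx : x ∈ gaussVal E hE A) :
    gaussValRed E' hE' A ⟨_, inclusion_mem_gaussVal hle hE hE' A hx⟩ =
      gaussValRed E hE A ⟨x, hx⟩ := rfl

end Generic

variable {M M' q : ℕ} [NeZero M] [NeZero M'] [hq : Fact q.Prime]

local instance neZero_prime_pullback : NeZero q := ⟨hq.out.ne_zero⟩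

/-- The pull back `X₀(M' q) → X₀(M q)` on functions. -/
def pullX (h : M ∣ M') : X0F M q →ₐ[ℚbar] X0F M' q :=
  IntermediateField.inclusion (Residual.Lower.mem_bar_of_dvd (Nat.mul_dvd_mul_right h q))

/-- The pull back keeps the series. -/
theorem coe_pullX (h : M ∣ M') (x : X0F M q) :
    (pullX h x : LaurentSeries ℚbar) = (x : LaurentSeries ℚbar) :=
  IntermediateField.coe_inclusion _ x

/-- The pull back commutes with `w_q`. -/
theorem pullX_atkinLehner (h : M ∣ M') (hqM : ¬ q ∣ M) (hqM' : ¬ q ∣ M') (x : X0F M q) :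
    atkinLehner hqM' (pullX h x) = pullX h (atkinLehner hqM x) := by
  have key : ((atkinLehner hqM').toAlgHom.comp (pullX h) : X0F M q →ₐ[ℚbar] X0F M' q) =
      (pullX h).comp (atkinLehner hqM).toAlgHom := algHom_ext_jdBar fun d => by
    have hmem : d.1 ∈ (M' * q).divisors := Nat.mem_divisors.2
      ⟨(Nat.dvd_of_mem_divisors d.2).trans (Nat.mul_dvd_mul_right h q), NeZero.ne _⟩
    have e : pullX h ⟨jdBar d, jdBar_mem d⟩ =
        (⟨jdBar ⟨d.1, hmem⟩, jdBar_mem _⟩ : X0F M' q) := Subtype.ext (coe_pullX h _)
    show atkinLehner hqM' (pullX h _) = pullX h (atkinLehner hqM _)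
    rw [e, atkinLehner_apply, atkinLehner_apply, atkinHom_jdBar, atkinHom_jdBar]
    refine Subtype.ext (Eq.trans ?_ (coe_pullX h _).symm)
    rfl
  exact AlgHom.congr_fun key x

/-- The pull back is linear. -/
theorem pullX_smul (h : M ∣ M') (c : ℚbar) (x : X0F M q) : pullX h (c • x) = c • pullX h x := by
  rw [Algebra.smul_def, Algebra.smul_def, map_mul, AlgHom.commutes]

/-- The pull back keeps fixed functions. -/
theorem pullX_mem_fixedFun (h : M ∣ M') {H : Subgroup Γℚ} {f : X0F M q}
    (hf : f ∈ fixedFun H M q) : pullX h f ∈ fixedFun H M' q := by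
  rw [mem_fixedFun_iff_series] at hf ⊢
  rw [coe_pullX]
  exact hf

/-- The pull back keeps the expansions at the two cusps. -/
theorem atCusp_pullX (h : M ∣ M') (hqM : ¬ q ∣ M) (hqM' : ¬ q ∣ M') :
    ∀ (i : Fin 2) (f : X0F M q), atCusp hqM' i (pullX h f) = atCusp hqM i f
  | 0, f => by rw [atCusp_zero, atCusp_zero, coe_pullX]
  | 1, f => by rw [atCusp_one, atCusp_one, pullX_atkinLehner h hqM hqM', coe_pullX]

/-- Pulling back keeps a divisibility of all orders. -/
theorem dvd_ord_pullX (h : M ∣ M') {d : ℤ} {f : X0F M q}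
    (hf : ∀ v : Place ℚbar (X0F M q), d ∣ v.ord f) (w : Place ℚbar (X0F M' q)) :
    d ∣ w.ord (pullX h f) := by
  rw [Place.ord_restrictAlong (pullX h) (Curve.isIntegral_toRingHom (pullX h)) w f]
  exact (hf _).mul_left _

/-- A place above with its ramification index. -/
theorem exists_place_above {K F F' : Type*} [Field K] [IsAlgClosed K] [Field F] [Field F']
    [Algebra K F] [Algebra K F'] [Curve.IsFunctionFieldOne K F] [Curve.IsFunctionFieldOne K F']
    (φ : F →ₐ[K] F') (v : Place K F) :
    ∃ (w : Place K F') (e : ℕ), 0 < e ∧ ∀ x : F, w.ord (φ x) = e * v.ord x := by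
  letI := algebraAlong φ
  haveI := isScalarTower_along φ
  haveI := isIntegral_along φ (Curve.isIntegral_toRingHom φ)
  haveI : Module.Finite F F' := Curve.finiteAlong φ
  obtain ⟨w, hw⟩ := Curve.exists_restrict_eq (F' := F') v
  refine ⟨w, Place.ramificationIndex (F := F) w, Place.ramificationIndex_pos w, fun x => ?_⟩
  rw [show φ x = algebraMap F F' x from rfl, Place.ord_restrict, hw]

variable (A : ValuationSubring ℚbar)

/-- The pull back keeps integrality on the component `∞`. -/
theorem pullX_mem_infV (h : M ∣ M') {x : X0F M q} (hx : x ∈ infV M q A) :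
    pullX h x ∈ infV M' q A :=
  inclusion_mem_gaussVal _ (modularFunctionFieldBar_le_finFrac (M * q))
    (modularFunctionFieldBar_le_finFrac (M' * q)) A hx

/-- The pull back keeps the reduction on the component `∞`. -/
theorem infRed_pullX (h : M ∣ M') (x : infV M q A) :
    infRed M' q A ⟨pullX h (x : X0F M q), pullX_mem_infV A h x.2⟩ = infRed M q A x :=
  gaussValRed_inclusion _ (modularFunctionFieldBar_le_finFrac (M * q))
    (modularFunctionFieldBar_le_finFrac (M' * q)) A x.2

/-- The pull back keeps integrality on both components. -/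
theorem pullX_mem_compV (h : M ∣ M') (hqM : ¬ q ∣ M) (hqM' : ¬ q ∣ M') :
    ∀ (i : Fin 2) {x : X0F M q}, x ∈ compV hqM A i → pullX h x ∈ compV hqM' A i
  | 0, _, hx => pullX_mem_infV A h hx
  | 1, _, hx => by
    rw [mem_compV_one, pullX_atkinLehner h hqM hqM']
    exact pullX_mem_infV A h hx

/-- The inclusion of the residual function fields. -/
def pullRes (h : M ∣ M') : X0Res M A →ₐ[ResidueField A] X0Res M' A :=
  IntermediateField.inclusion (full_degeneracyC_le (ResidueField A) h)

/-- The residual pull back keeps the series. -/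
theorem coe_pullRes (h : M ∣ M') (x : X0Res M A) :
    (pullRes A h x : LaurentSeries (ResidueField A)) = (x : LaurentSeries (ResidueField A)) :=
  IntermediateField.coe_inclusion _ x

/-- The residual pull back keeps `j`. -/
theorem pullRes_resJ (h : M ∣ M') :
    pullRes A h (resJ (ResidueField A) M) = resJ (ResidueField A) M' :=
  Subtype.ext (coe_pullRes A h _)

variable (hA : A.LiesOverPrime q)

/-- Reduction commutes with pulling back. -/
theorem compPhi_pullX (h : M ∣ M') (hqM : ¬ q ∣ M) (hqM' : ¬ q ∣ M') :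
    ∀ (i : Fin 2) (x : compV hqM A i),
      compPhi hqM' A hA i ⟨pullX h (x : X0F M q), pullX_mem_compV A h hqM hqM' i x.2⟩ =
        pullRes A h (compPhi hqM A hA i x)
  | 0, x => Subtype.ext ((coe_compPhi_zero hqM' A hA _).trans ((infRed_pullX A h x).trans
      ((coe_pullRes A h _).trans (coe_compPhi_zero hqM A hA x)).symm))
  | 1, x => Subtype.ext ((coe_compPhi_one hqM' A hA _).trans (((congrArg (infRed M' q A)
      (Subtype.ext (pullX_atkinLehner h hqM hqM' (x : X0F M q)))).trans
      (infRed_pullX A h ⟨atkinLehner hqM (x : X0F M q), x.2⟩)).trans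
      ((coe_pullRes A h _).trans (coe_compPhi_one hqM A hA x)).symm))

variable {A hA} {H : Subgroup Γℚ} (hH : H ≤ A.inertiaSubgroupIn ℚ) (U : Uniformiser A q H)

/-- Valuations and reductions of a pull back. -/
theorem hasVal_pullX (h : M ∣ M') (hqM : ¬ q ∣ M) (hqM' : ¬ q ∣ M') {f : X0F M q}
    {n : Fin 2 → ℤ} {φ : Fin 2 → X0Res M A}
    (hval : Move.HasVal (x0Descent hqM hA hH U) f n φ) :
    Move.HasVal (x0Descent hqM' hA hH U) (pullX h f) n fun i => pullRes A h (φ i) := by
  have hinj : Function.Injective (pullRes A h) :=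
    fun x y e => Subtype.ext (by rw [← coe_pullRes A h x, e, coe_pullRes A h y])
  refine ⟨fun i => ?_, fun i => ?_⟩
  swap
  · intro h0
    have h1 : φ i ≠ 0 := hval.ne_zero i
    exact h1 (hinj (Eq.trans h0 (map_zero (pullRes A h)).symm))
  obtain ⟨hV, he⟩ := hval.slot i
  have hm : (U.π ^ n i)⁻¹ • pullX h f ∈ compV hqM' A i := by
    rw [← pullX_smul h]; exact pullX_mem_compV A h hqM hqM' i hV
  refine ⟨hm, Eq.trans (congrArg (compPhi hqM' A hA i) (Subtype.ext ?_))
    ((compPhi_pullX A hA h hqM hqM' i ⟨_, hV⟩).trans (congrArg (pullRes A h) he))⟩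
  exact (pullX_smul h _ f).symm

include q hA in
/-- A residual place above with its ramification index. -/
theorem exists_place_pullRes (h : M ∣ M') (hqM : ¬ q ∣ M)
    (v : Place (ResidueField A) (X0Res M A)) :
    ∃ (w : Place (ResidueField A) (X0Res M' A)) (e : ℕ), 0 < e ∧
      ∀ x : X0Res M A, w.ord (pullRes A h x) = e * v.ord x := by
  haveI := (x0Reduction hqM A hA).isAlgClosed_residue
  exact @exists_place_above (ResidueField A) (X0Res M A) (X0Res M' A) _ _ _ _ _ _ _ _
    (pullRes A h) v

end Fermat.Agent.MazurPrinciple2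

end
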