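/-
Mazur's principle at `p`: the two cases of the component step for an auxiliary unit whose
valuations differ by `k e` with `p ∤ k`.
-/
import Fermat.Agent.MP.SecondX0Inertial

set_option autoImplicit false
set_option linter.style.haveILetI false
set_option synthInstance.maxHeartbeats 200000
set_option maxHeartbeats 4000000

noncomputable section

namespace Fermat.Agent.MazurPrinciple2

open ModularCurve AlgebraicCurve IsLocalRing
open Fermat.Agent.BadReduction Fermat.Agent.MazurPrinciple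

local notation "ℚbar" => AlgebraicClosure ℚ
local notation "Γℚ" => AlgebraicClosure ℚ ≃ₐ[ℚ] AlgebraicClosure ℚ

variable {M q : ℕ} [NeZero M] [hq : Fact q.Prime]

local instance neZero_prime_inertialUnit : NeZero q := ⟨hq.out.ne_zero⟩

variable (hqM : ¬ q ∣ M) {A : ValuationSubring ℚbar} (hA : A.LiesOverPrime q)
  {W : WeierstrassCurve ℤ} (L : LocalData W q A)

/-- The two cases of the component step: the valuations of the unit differ modulo `q` at every
node, or there is wild inertia data. -/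
theorem tame_or_wildData_of_not_dvd {k : ℕ} (hk : ¬ q ∣ k) {S : Type} [Fintype S]
    (P : Move.NodePairs (x0Reduction hqM A hA) S)
    (Ud : Move.UnitData (x0Descent hqM hA L.le_inertia L.U) q P)
    (hU : ∀ σ : Γℚ, arithmeticGalois (modularFunctionFieldFull (M * q)) σ • (Ud.U : X0F M q)
      = Ud.U)
    (hm0 : Ud.m 0 = 0) (hm1 : (Ud.m 1).natAbs = k * L.U.e)
    (hne : ∀ t, (P.br t 0).1 ≠ (P.br t 1).1)
    (C : Fin 2 → Move.CuspLead (x0Descent hqM hA L.le_inertia L.U) P)
    (hℓ : ∀ b f, (C b).ℓ f = (atCusp hqM b f).leadingCoeff) :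
    (∀ t, ¬ (q : ℤ) ∣ Ud.m (P.br t 0).1 - Ud.m (P.br t 1).1) ∨
      Nonempty (Move.WildData P Ud C) := by
  have hq2 := hq.out.two_le
  have hdiff : ∀ t, (Ud.m (P.br t 0).1 - Ud.m (P.br t 1).1).natAbs = k * L.U.e := by
    intro t
    have h := hne t
    revert h
    generalize (P.br t 0).1 = x
    generalize (P.br t 1).1 = y
    intro h
    fin_cases x <;> fin_cases y
    · exact absurd rfl h
    · show (Ud.m 0 - Ud.m 1).natAbs = _
      rw [hm0, zero_sub, Int.natAbs_neg, hm1]
    · show (Ud.m 1 - Ud.m 0).natAbs = _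
      rw [hm0, sub_zero, hm1]
    · exact absurd rfl h
  by_cases hqe : q ∣ L.U.e
  swap
  · refine Or.inl fun t h => ?_
    rw [Int.natCast_dvd, hdiff t] at h
    exact hqe ((hq.out.dvd_mul.1 h).resolve_left hk)
  obtain ⟨σ, hσ, hσq, a, haA, hafix, hamove, hζ⟩ := L.wild hqe
  obtain ⟨ζ, hζp⟩ := HasEnoughRootsOfUnity.exists_primitiveRoot ℚbar q
  set π := L.U.π
  have hπ0 : π ≠ 0 := L.U.ne_zero
  have hπv0 : A.valuation π ≠ 0 := (Valuation.ne_zero_iff _).2 hπ0
  have hπv1 : A.valuation π < 1 := (A.mem_nonunits_iff).1 L.U.mem_nonunits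
  have hmove : A.valuation (σ a - a) ≤ A.valuation (σ π - π) :=
    valuation_sub_le hq.out hA L.le_inertia L.U hσ haA hafix hamove
  set x := σ π / π - 1 with hx
  have hxπ : σ π - π = π * x := by rw [hx]; field_simp
  have hxfix : IsFixedBy L.H x := by
    rw [hx, div_eq_mul_inv]
    exact ((L.apply_fixed hσ L.U.fixed).mul L.U.fixed.inv).sub fun τ _ => map_one τ
  have hxnu : x ∈ A.nonunits := div_sub_one_mem_nonunits hq.out hA L.U hσ hσq
  have hx0 : x ≠ 0 := by
    intro h0
    rw [hxπ, h0, mul_zero, map_zero, le_zero_iff, Valuation.zero_iff, sub_eq_zero] at hmove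
    exact hamove hmove
  obtain ⟨j, hj⟩ := L.exists_pow (A.nonunits_subset hxnu) hx0 hxfix
  have hjpos : 0 < j := by
    rcases Nat.eq_zero_or_pos j with rfl | h
    · rw [pow_zero] at hj; exact absurd hj ((A.mem_nonunits_iff).1 hxnu).ne
    · exact h
  have hσπ : A.valuation (σ π - π) = A.valuation π ^ (j + 1) := by
    rw [hxπ, map_mul, hj, pow_succ']
  -- `(q - 1) (j + 1) ≤ e`
  have hbound : (q - 1) * (j + 1) ≤ L.U.e := by
    have h1 : A.valuation π ^ L.U.e ≤ A.valuation π ^ ((q - 1) * (j + 1)) := by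
      rw [← L.U.valuation_p, ← valuation_sub_one_pow_eq hq.out hζp, mul_comm (q - 1), pow_mul,
        ← hσπ]
      exact pow_le_pow_left₀ zero_le ((hζ ζ hζp).trans hmove) _
    by_contra hlt
    exact h1.not_gt (pow_lt_pow_right_of_lt_one₀ (zero_lt_iff.2 hπv0) hπv1 (by omega))
  have hwild : ∀ b ∈ A, IsFixedBy L.H b → (σ b - b) / π ^ (j + 1) ∈ A := by
    intro b hb hbfix
    rcases eq_or_ne (σ b) b with h | h
    · simp [h]
    rw [← A.valuation_le_one_iff, map_div₀, map_pow,
      div_le_one₀ (pow_pos (zero_lt_iff.2 hπv0) _), ← hσπ]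
    exact valuation_sub_le hq.out hA L.le_inertia L.U hσ hb hbfix h
  have hπn : π ^ (j + 1) ∈ A.nonunits := by
    rw [A.mem_nonunits_iff, map_pow]; exact pow_lt_one₀ zero_le hπv1 (by omega)
  obtain ⟨s, hsK, hsσ⟩ := exists_map_of_mem hqM hA L hσ
  obtain ⟨hc0A, hc0⟩ := L.div_pow hj
  obtain ⟨u0, -, hu0⟩ := exists_lead_prime hqM hA L
  refine Or.inr ⟨{
    s := s
    map_U := Subtype.ext ((hsσ _).trans (hU σ))
    j := j
    c0 := residue A ⟨_, hc0A⟩
    j_pos := hjpos
    c0_ne_zero := hc0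
    e := L.U.e
    u0 := u0
    lead_p := hu0
    lt := ?_
    lead_π := fun b => ?_
    expand := fun b f hf => ?_
    ℓ_map := fun b g => ?_
    m_dvd := fun b => ?_
    m_not_dvd := fun t h => ?_ }⟩
  · have h1 : q * (j + 1) ≤ L.U.e + (j + 1) := by
      calc q * (j + 1) = (q - 1) * (j + 1) + (j + 1) := by
            rw [← Nat.succ_mul, show (q - 1).succ = q by omega]
        _ ≤ _ := by omega
    rw [mul_add, mul_one] at h1
    omega
  · have hxK : x ∈ (x0Descent hqM hA L.le_inertia L.U).K0 := hxfix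
    convert (x0Descent hqM hA L.le_inertia L.U).lead_constHom ⟨x, hxK⟩ (i := j) hc0A b using 1
    refine Subtype.ext ?_
    simp only [Subfield.coe_sub, Subfield.coe_div, Subfield.coe_one]
    rw [hsσ, Move.Descent.coe_πF]
    show arithmeticRingAut (modularFunctionFieldFull (M * q)) σ (algebraMap ℚbar (X0F M q) π) /
        algebraMap ℚbar (X0F M q) π - 1 = algebraMap ℚbar (X0F M q) x
    rw [arithmeticRingAut_algebraMap, hx, map_sub, map_div₀, map_one]
    rfl
  · obtain ⟨c, hc⟩ := hf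
    rw [pow_zero, one_mul] at hc
    subst hc
    set g := (c : (x0Descent hqM hA L.le_inertia L.U).F0)
    have hgV : (g : X0F M q) ∈ compV hqM A b := c.2
    have hmem := galois_sub_mem_compV hqM hπ0 hπn hwild g.2 b hgV
    refine ⟨⟨⟨_, (x0Descent hqM hA L.le_inertia L.U).smul_mem
      (inv_mem (pow_mem (x0Descent hqM hA L.le_inertia L.U).ϖ_mem (j + 1))) (s.σ g - g).2⟩, ?_⟩,
        Subtype.ext ?_⟩
    · show (π ^ (j + 1))⁻¹ • (((s.σ g - g : (x0Descent hqM hA L.le_inertia L.U).F0)) : X0F M q)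
        ∈ compV hqM A b
      rw [Subfield.coe_sub, hsσ]
      exact hmem
    · simp only [Subfield.coe_mul, SubmonoidClass.coe_pow, Move.Descent.coe_πF]
      show (((s.σ g - g : (x0Descent hqM hA L.le_inertia L.U).F0)) : X0F M q)
        = algebraMap ℚbar (X0F M q) π ^ (j + 1) * ((π ^ (j + 1))⁻¹ •
          (((s.σ g - g : (x0Descent hqM hA L.le_inertia L.U).F0)) : X0F M q))
      rw [← map_pow, ← Algebra.smul_def, smul_inv_smul₀ (pow_ne_zero _ hπ0)]
  · rw [hsK]
    simp only [hℓ, hsσ]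
    fin_cases b
    · show ((arithmeticGalois _ σ • (g : X0F M q) : X0F M q) :
        LaurentSeries ℚbar).leadingCoeff = σ ((g : X0F M q) : LaurentSeries ℚbar).leadingCoeff
      rw [coe_galois_smul, leadingCoeff_coeffMap_galois]
    · show ((atkinLehner hqM (arithmeticGalois _ σ • (g : X0F M q)) : X0F M q) :
        LaurentSeries ℚbar).leadingCoeff
          = σ ((atkinLehner hqM (g : X0F M q) : X0F M q) : LaurentSeries ℚbar).leadingCoeff
      rw [atkinLehner_galois, coe_galois_smul, leadingCoeff_coeffMap_galois]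
  · fin_cases b
    · show (q : ℤ) ∣ Ud.m 0
      rw [hm0]; exact dvd_zero _
    · show (q : ℤ) ∣ Ud.m 1
      rw [Int.natCast_dvd, hm1]
      exact dvd_mul_of_dvd_right hqe _
  · rw [← Nat.cast_mul, Int.natCast_dvd, hdiff t] at h
    refine L.sq_not_dvd ?_
    rw [sq]
    exact (Nat.Coprime.mul_left ((hq.out.coprime_iff_not_dvd).2 hk)
      ((hq.out.coprime_iff_not_dvd).2 hk)).dvd_of_dvd_mul_left h

end Fermat.Agent.MazurPrinciple2

end
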