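/-
Mazur's principle at `3`: for a prime `r ≡ 8 (mod 9)` dividing `M` the cube unit of `X₀(3 M)` as
auxiliary unit of the component step: valuations `0`, `- 8 e`, orders divisible by `3` at all
places, indivisible orders on the first branch of every node.
-/
import Fermat.Agent.MazurPrinciple.NodesUnitData
import Fermat.Agent.MazurPrinciple2.CubeDivisor

set_option autoImplicit false
set_option linter.style.haveILetI false
set_option synthInstance.maxHeartbeats 400000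
set_option maxHeartbeats 800000

noncomputable section

namespace Fermat.Agent.MazurPrinciple2

open ModularCurve AlgebraicCurve IsLocalRing
open Fermat.Agent.BadReduction Fermat.Agent.MazurPrinciple
open Fermat.Agent.Curve (divisorOf divisorOf_apply)
open Fermat.Agent.MazurPrinciple.Move (indivisible mem_indivisible)

local notation "ℚbar" => AlgebraicClosure ℚ
local notation "Γℚ" => AlgebraicClosure ℚ ≃ₐ[ℚ] AlgebraicClosure ℚ

variable {M q : ℕ} [NeZero M] [hq : Fact q.Prime]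

local instance neZero_primeUnitThree : NeZero q := ⟨hq.out.ne_zero⟩

variable (hqM : ¬ q ∣ M) {A : ValuationSubring ℚbar} (hA : A.LiesOverPrime q)

include hqM hA in
/-- The valuations and reductions of a function which is a unit on the component `∞` and, times
`q ^ n`, on the component `0`. -/
theorem exists_hasVal_unit {H : Subgroup Γℚ} (hH : H ≤ A.inertiaSubgroupIn ℚ)
    (U : Uniformiser A q H) {n : ℕ} {W : X0F M q}
    (h₀ : ∃ h : W ∈ compV hqM A 0, compPhi hqM A hA 0 ⟨W, h⟩ ≠ 0)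
    (h₁ : ∃ h : ((q : ℚbar) ^ n) • W ∈ compV hqM A 1, compPhi hqM A hA 1 ⟨_, h⟩ ≠ 0) :
    ∃ ub : Fin 2 → X0Res M A,
      Move.HasVal (x0Descent hqM hA hH U) W (![0, -((n : ℤ) * U.e)] : Fin 2 → ℤ) ub := by
  obtain ⟨h₀, hne₀⟩ := h₀
  obtain ⟨h₁, hne₁⟩ := h₁
  have hq0 : (q : ℚbar) ≠ 0 := Nat.cast_ne_zero.2 hq.out.ne_zero
  set c : ℚbar := U.π ^ (n * U.e) / (q : ℚbar) ^ n with hc
  have hvc : A.valuation c = 1 := by
    rw [hc, map_div₀, map_pow, map_pow, U.valuation_p, ← pow_mul, mul_comm U.e n]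
    exact div_self (pow_ne_zero _ ((Valuation.ne_zero_iff _).2 U.ne_zero))
  have hcA : c ∈ A := (A.valuation_le_one_iff c).1 hvc.le
  have hres : residue A ⟨c, hcA⟩ ≠ 0 := by
    rw [residue_ne_zero_iff_isUnit]
    exact (A.valuation_eq_one_iff ⟨c, hcA⟩).2 hvc
  have heq : U.π ^ (n * U.e) • W = algebraMap ℚbar (X0F M q) c * ((q : ℚbar) ^ n • W) := by
    rw [← Algebra.smul_def, smul_smul, hc, div_mul_cancel₀ _ (pow_ne_zero _ hq0)]
  have hmem : U.π ^ (n * U.e) • W ∈ compV hqM A 1 := by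
    rw [heq]
    exact mul_mem ((algebraMap_mem_compV_iff hqM A 1 c).2 hcA) h₁
  have hred : compPhi hqM A hA 1 ⟨_, hmem⟩ =
      algebraMap (ResidueField A) (X0Res M A) (residue A ⟨c, hcA⟩) *
        compPhi hqM A hA 1 ⟨_, h₁⟩ := by
    rw [← compPhi_algebraMap hqM A hA 1 ⟨c, hcA⟩, ← map_mul]
    exact congrArg _ (Subtype.ext heq)
  refine ⟨![compPhi hqM A hA 0 ⟨W, h₀⟩, compPhi hqM A hA 1 ⟨_, hmem⟩], ⟨fun i => ?_, fun i => ?_⟩⟩
  · fin_cases i
    · have e : ((U.π ^ ((![0, -((n : ℤ) * U.e)] : Fin 2 → ℤ) 0))⁻¹ : ℚbar) • W = W := by simp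
      refine ⟨?_, ?_⟩
      · show ((U.π ^ ((![0, -((n : ℤ) * U.e)] : Fin 2 → ℤ) 0))⁻¹ : ℚbar) • W ∈ compV hqM A 0
        rw [e]
        exact h₀
      · show compPhi hqM A hA 0 _ = compPhi hqM A hA 0 ⟨W, h₀⟩
        exact congrArg (compPhi hqM A hA 0) (Subtype.ext e)
    · have e : ((U.π ^ ((![0, -((n : ℤ) * U.e)] : Fin 2 → ℤ) 1))⁻¹ : ℚbar) • W =
          U.π ^ (n * U.e) • W := by
        rw [Matrix.cons_val_one, Matrix.cons_val_fin_one, zpow_neg, inv_inv,
          ← Nat.cast_mul, zpow_natCast]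
      refine ⟨?_, ?_⟩
      · show ((U.π ^ ((![0, -((n : ℤ) * U.e)] : Fin 2 → ℤ) 1))⁻¹ : ℚbar) • W ∈ compV hqM A 1
        rw [e]
        exact hmem
      · show compPhi hqM A hA 1 _ = compPhi hqM A hA 1 ⟨_, hmem⟩
        exact congrArg (compPhi hqM A hA 1) (Subtype.ext e)
  · fin_cases i
    · exact hne₀
    · show compPhi hqM A hA 1 ⟨_, hmem⟩ ≠ 0
      rw [hred]
      exact mul_ne_zero ((map_ne_zero _).2 hres) hne₁

include hqM hA in
/-- **The auxiliary unit at `3`.** -/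
theorem exists_unitData (hq3 : q = 3) {r : ℕ} (hr : r.Prime) (hr9 : r % 9 = 8) (hrM : r ∣ M)
    {H : Subgroup Γℚ} (hH : H ≤ A.inertiaSubgroupIn ℚ) (U : Uniformiser A q H) :
    ∃ Ud : Move.UnitData (x0Descent hqM hA hH U) q (x0NodePairs hqM A hA),
      (∀ σ : Γℚ, arithmeticGalois (modularFunctionFieldFull (M * q)) σ • (Ud.U : X0F M q)
        = Ud.U) ∧ Ud.m 0 = 0 ∧ (Ud.m 1).natAbs = 8 * U.e := by
  classical
  haveI := charP_residue_of_liesOverPrime hq.out hA
  haveI : NeZero r := ⟨hr.ne_zero⟩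
  obtain ⟨x, hx3, hxmem⟩ := Ribet.MP.exists_cubeUnitSeries (r := r) (q := q) (by omega)
  obtain ⟨W, -, hW, hcube, hgal, hord, hcomp⟩ :=
    Ribet.MP.exists_cubeUnit_of_series hqM hrM hx3 (hxmem M hrM)
  have hdvd := three_dvd_ord hq3 hr hr9 hrM hW hcube hord
  have hind : indivisible q (divisorOf ℚbar W) = ∅ :=
    Finset.eq_empty_of_forall_notMem fun v hv => mem_indivisible.1 hv (by simpa using hdvd v)
  have hfix : ∀ {H' : Subgroup Γℚ} (hH' : H' ≤ A.inertiaSubgroupIn ℚ) (U' : Uniformiser A q H'),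
      W ∈ (x0Descent hqM hA hH' U').F0 :=
    fun _ _ => mem_fixedFun.2 fun σ _ => hgal σ
  obtain ⟨ub, hval⟩ := exists_hasVal_unit hqM hA hH U (hcomp A hA).1 (hcomp A hA).2
  -- the orders at the nodes, read with an unramified uniformiser
  set I := A.inertiaSubgroupIn ℚ
  obtain ⟨U₁, hU₁⟩ := exists_uniformiser hq.out hA I 1 fun c hc =>
    ⟨{c}, Finset.mem_singleton_self c, le_of_eq (Finset.card_singleton c),
      fun σ hσ => Finset.mem_singleton.2 (hc σ hσ)⟩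
  have he : U₁.e = 1 := le_antisymm hU₁ U₁.e_pos
  obtain ⟨ub₁, hval₁⟩ := exists_hasVal_unit hqM hA le_rfl U₁ (hcomp A hA).1 (hcomp A hA).2
  have h0 : ∀ {H' : Subgroup Γℚ} (hH' : H' ≤ A.inertiaSubgroupIn ℚ) (U' : Uniformiser A q H')
      {ub' : Fin 2 → X0Res M A},
      Move.HasVal (x0Descent hqM hA hH' U') W (![0, -((8 : ℤ) * U'.e)] : Fin 2 → ℤ) ub' →
      ∃ h : W ∈ compV hqM A 0, ub' 0 = compPhi hqM A hA 0 ⟨W, h⟩ := by
    intro H' hH' U' ub' hv
    obtain ⟨hm, hφ⟩ := hv.slot 0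
    have e : ((U'.π ^ ((![0, -((8 : ℤ) * U'.e)] : Fin 2 → ℤ) 0))⁻¹ : ℚbar) • W = W := by simp
    exact ⟨(hcomp A hA).1.choose, hφ.symm.trans (congrArg (compPhi hqM A hA 0) (Subtype.ext e))⟩
  have hnode : ∀ s, ¬ (q : ℤ) ∣ ((x0NodePairs hqM A hA).br s 0).2.ord
      (ub₁ ((x0NodePairs hqM A hA).br s 0).1) := by
    intro s hs
    have key := Move.dvd_sub_of_node (x0Descent hqM hA le_rfl U₁)
      (Mazur.rankLeOne_of_liesOverPrime hq.out hA) (x0NodePairs hqM A hA) hW hval₁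
      (spannedByFixed hqM hA le_rfl U₁ ⟨W, hfix le_rfl U₁⟩) ∅
      (fun b hb => absurd hb (Finset.notMem_empty b)) (by rw [hind]; exact Nat.zero_le _) s
      (x0NodePairs_htwo hqM A hA s) hs
    rw [x0NodePairs_br_fst hqM A hA s 0, x0NodePairs_br_fst hqM A hA s 1, he, hq3] at key
    norm_num at key
  refine ⟨{
    U := ⟨W, hfix hH U⟩
    ne_zero := hW
    m := ![0, -((8 : ℤ) * U.e)]
    ub := ub
    hasVal := hval
    T := ∅
    mem_T := fun b hb => absurd hb (Finset.notMem_empty b)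
    sep := le_of_eq (congrArg Finset.card hind)
    node := fun s => ?_ }, hgal, rfl, ?_⟩
  · obtain ⟨h, e⟩ := h0 hH U hval
    obtain ⟨h', e'⟩ := h0 le_rfl U₁ hval₁
    have hs := hnode s
    rw [x0NodePairs_br_fst hqM A hA s 0] at hs ⊢
    exact (e.trans e'.symm).symm ▸ hs
  · show (-((8 : ℤ) * U.e)).natAbs = _
    rw [Int.natAbs_neg]
    norm_cast

end Fermat.Agent.MazurPrinciple2

end
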