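/-
Mazur's principle at `3`: the component step on `X₀(3 M)` when a prime `r ≡ 8 (mod 9)` divides
`M`, with the cube unit as auxiliary unit.
-/
import Fermat.Agent.MazurPrinciple2.InertialUnit
import Fermat.Agent.MazurPrinciple2.UnitThree
import Fermat.Agent.MazurPrinciple.Main

set_option autoImplicit false
set_option linter.style.haveILetI false
set_option synthInstance.maxHeartbeats 400000
set_option maxHeartbeats 1600000

noncomputable section

namespace Fermat.Agent.MazurPrinciple2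

open ModularCurve AlgebraicCurve IsLocalRing
open Fermat.Agent.BadReduction Fermat.Agent.MazurPrinciple

local notation "ℚbar" => AlgebraicClosure ℚ

variable {W : WeierstrassCurve ℤ} {M : ℕ} [NeZero M] [h3 : Fact (Nat.Prime 3)]

/-- With a prime `r ≡ 8 (mod 9)` in the level `3` divides the valuations and all orders. -/
theorem dvd_val_and_ord_of_prime_dvd (hM : ¬ 3 ∣ M) {r : ℕ} (hr : r.Prime) (hr9 : r % 9 = 8)
    (hrM : r ∣ M) {A : ValuationSubring ℚbar} (hA : A.LiesOverPrime 3) (L : LocalData W 3 A)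
    {f : (x0Descent hM hA L.le_inertia L.U).F0} (hf0 : (f : X0F M 3) ≠ 0)
    (hdvd : ∀ v : Place ℚbar (X0F M 3), (3 : ℤ) ∣ v.ord (f : X0F M 3))
    (hroot : ∀ b : Fin 2, ∃ z : ℚbar, IsFixedBy L.H z ∧
      (atCusp hM b (f : X0F M 3)).leadingCoeff = z ^ 3)
    {n : Fin 2 → ℤ} {φ : Fin 2 → X0Res M A}
    (hval : Move.HasVal (x0Descent hM hA L.le_inertia L.U) (f : X0F M 3) n φ) :
    (∀ b, (3 : ℤ) ∣ n b) ∧
      ∀ (i : Fin 2) (v : Place (ResidueField A) (X0Res M A)), (3 : ℤ) ∣ v.ord (φ i) := by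
  haveI := charP_residueField A h3.out hA
  haveI := (x0Reduction hM A hA).isAlgClosed_residue
  obtain ⟨Ud, hU, hm0, hm1⟩ := exists_unitData hM hA rfl hr hr9 hrM L.le_inertia L.U
  have hsmooth : ∀ (i : Fin 2) (v : Place (ResidueField A) (X0Res M A)),
      (∀ g : X0Res M A, v.ord g = (g : LaurentSeries (ResidueField A)).order) →
      ∀ s j, (x0NodePairs hM A hA).br s j ≠ ⟨i, v⟩ := fun i v hv s j =>
    x0NodePairs_br_ne_cusp hM A hA s j i
      (by rw [hv]; exact order_jqModC_neg_aux _)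
  obtain ⟨C, hC, hℓ⟩ := exists_cuspLeads (hqM := hM) (hA := hA) (hH := L.le_inertia) (U := L.U)
    hsmooth
  have hcase := tame_or_wildData_of_not_dvd hM hA L (k := 8) (by decide : ¬ 3 ∣ 8)
    (x0NodePairs hM A hA) Ud hU hm0 hm1
    (fun t => by rw [x0NodePairs_br_fst, x0NodePairs_br_fst]; decide) C (fun b f => hℓ b f)
  choose z hz hzq using hroot
  exact Move.dvd_val_and_ord (Mazur.rankLeOne_of_liesOverPrime h3.out hA) (x0NodePairs hM A hA) Ud
    f hval hf0 hdvd
    (fun a => spannedByFixed hM hA L.le_inertia L.U (f * Ud.U ^ a)) C hC z hz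
    (fun b => (hℓ b f).trans (hzq b)) (x0NodePairs_htwo hM A hA) (x0_connected hM A hA) hcase

end Fermat.Agent.MazurPrinciple2

end
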