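/-
Mazur's principle at `3`: valuations and orders away from the thick places, by pulling back to
`X₀(3 M r)` for a prime `r ≡ 8 (mod 9)`, where the cube unit exists.
-/
import Fermat.Agent.MazurPrinciple.Main
import Fermat.Agent.MazurPrinciple2.Defs
import Fermat.Agent.MazurPrinciple2.NodeOrd
import Fermat.Agent.MazurPrinciple2.Pullback
import Fermat.Agent.MazurPrinciple2.UpperStep
import Mathlib.NumberTheory.LSeries.PrimesInAP

set_option autoImplicit false
set_option linter.style.haveILetI false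
set_option synthInstance.maxHeartbeats 400000

noncomputable section

namespace Fermat.Agent.MazurPrinciple2

open ModularCurve AlgebraicCurve IsLocalRing
open Fermat.Agent.BadReduction Fermat.Agent.MazurPrinciple

local notation "ℚbar" => AlgebraicClosure ℚ

variable {W : WeierstrassCurve ℤ} {M : ℕ} [NeZero M] [h3 : Fact (Nat.Prime 3)]

/-- `3` divides the valuations and the orders outside the thick places. -/
theorem dvd_val_and_ord_of_not_thick (hM : ¬ 3 ∣ M) {A : ValuationSubring ℚbar}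
    (hA : A.LiesOverPrime 3) (L : LocalData W 3 A)
    {f : (x0Descent hM hA L.le_inertia L.U).F0} (hf0 : (f : X0F M 3) ≠ 0)
    (hdvd : ∀ v : Place ℚbar (X0F M 3), (3 : ℤ) ∣ v.ord (f : X0F M 3))
    (hroot : ∀ b : Fin 2, ∃ z : ℚbar, IsFixedBy L.H z ∧
      (atCusp hM b (f : X0F M 3)).leadingCoeff = z ^ 3)
    {n : Fin 2 → ℤ} {φ : Fin 2 → X0Res M A}
    (hval : Move.HasVal (x0Descent hM hA L.le_inertia L.U) (f : X0F M 3) n φ) :
    (∀ b, (3 : ℤ) ∣ n b) ∧
      ∀ (i : Fin 2) (v : Place (ResidueField A) (X0Res M A)),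
        ¬ IsThick v → (3 : ℤ) ∣ v.ord (φ i) := by
  classical
  haveI := charP_residueField A h3.out hA
  haveI := (x0Reduction hM A hA).isAlgClosed_residue
  obtain ⟨r, hr', hr, hrmod⟩ := Nat.forall_exists_prime_gt_and_eq_mod
    (q := 9) (a := 8) (by decide : IsUnit (8 : ZMod 9)) 3
  have hr9 : r % 9 = 8 := by
    have h := (ZMod.natCast_eq_natCast_iff' r 8 9).1 hrmod
    simpa using h
  haveI : NeZero r := ⟨hr.ne_zero⟩
  haveI : NeZero (M * r) := ⟨mul_ne_zero (NeZero.ne M) (NeZero.ne r)⟩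
  have hM' : ¬ 3 ∣ M * r := fun h => (h3.out.dvd_mul.1 h).elim hM fun h' => by omega
  have hd : M ∣ M * r := dvd_mul_right M r
  let f' : (x0Descent hM' hA L.le_inertia L.U).F0 :=
    ⟨pullX hd (f : X0F M 3), pullX_mem_fixedFun hd f.2⟩
  obtain ⟨hn, hord⟩ := dvd_val_and_ord_of_prime_dvd hM' hr hr9 (dvd_mul_left r M) hA L (f := f')
    ((map_ne_zero (pullX hd)).2 hf0) (dvd_ord_pullX hd hdvd)
    (fun b => by
      obtain ⟨z, hz, hzq⟩ := hroot b
      exact ⟨z, hz, by rw [← hzq]; exact congrArg _ (atCusp_pullX hd hM hM' b (f : X0F M 3))⟩)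
    (hasVal_pullX L.le_inertia L.U hd hM hM' hval)
  refine ⟨hn, fun i v hv => ?_⟩
  by_cases hJ : v.ord (resJ (ResidueField A) M) ≤ 0
  · -- a smooth place
    refine Move.dvd_ord_of_smooth (Mazur.rankLeOne_of_liesOverPrime h3.out hA)
      (x0NodePairs hM A hA) f hval hf0 hdvd fun s j => ?_
    rcases lt_or_eq_of_le hJ with hlt | heq
    · exact x0NodePairs_br_ne_cusp hM A hA s j i hlt
    · intro h
      have h0 := ord_resJ_ne_zero_of_node hM A hA s j
      rw [h] at h0
      exact h0 heq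
  · rw [not_le] at hJ
    have h3J : (3 : ℤ) ∣ v.ord (resJ (ResidueField A) M) := by
      by_contra h
      exact hv ⟨hJ, h⟩
    obtain ⟨w, e, he, hw⟩ := exists_place_pullRes (hA := hA) hd hM v
    have h9 := not_nine_dvd_ord_resJ hM' A hA (v := w) (by
      rw [← pullRes_resJ A hd, hw]; positivity)
    rw [← pullRes_resJ A hd, hw] at h9
    have he3 : ¬ (3 : ℤ) ∣ (e : ℤ) := fun h => h9 (by
      obtain ⟨a, ha⟩ := h
      obtain ⟨b, hb⟩ := h3J
      exact ⟨a * b, by rw [ha, hb]; ring⟩)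
    have h := hord i w
    rw [hw] at h
    exact (Int.prime_three.dvd_or_dvd h).resolve_left he3

end Fermat.Agent.MazurPrinciple2

end
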