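/-
Mazur's principle at `3` for an arbitrary integral model and level.
-/
import Fermat.Agent.MazurPrinciple2.Thick
import Fermat.Agent.MazurPrinciple2.Upper

set_option autoImplicit false
set_option linter.style.haveILetI false
set_option synthInstance.maxHeartbeats 400000
set_option maxHeartbeats 1600000

noncomputable section

namespace Fermat.Agent.MazurPrinciple2

open ModularCurve AlgebraicCurve IsLocalRing
open Fermat.Agent.BadReduction Fermat.Agent.MazurPrinciple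

local notation "ℚbar" => AlgebraicClosure ℚ
local notation "Γℚ" => AlgebraicClosure ℚ ≃ₐ[ℚ] AlgebraicClosure ℚ

variable {W : WeierstrassCurve ℤ} {M : ℕ} [NeZero M] [h3 : Fact (Nat.Prime 3)]

variable (hpM : ¬ 3 ∣ M) {A : ValuationSubring ℚbar} (hA : A.LiesOverPrime 3)
  (L : LocalData W 3 A)

include hpM hA L in
/-- The component step at `3`. -/
theorem exists_rootData_three (hnot : ¬ W.IsResiduallyModularOfLevel 3 M)
    {f : (x0Descent hpM hA L.le_inertia L.U).F0}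
    (hf0 : (f : X0F M 3) ≠ 0) (hdvd : ∀ v : Place ℚbar (X0F M 3), (3 : ℤ) ∣ v.ord (f : X0F M 3))
    (hlead : ((f : X0F M 3) : LaurentSeries ℚbar).leadingCoeff = 1)
    (hrel : HeckeRel W L.H (f : X0F M 3))
    {l : ℕ} (hl : l.Prime) (hl2 : l ≠ 2) (hlN : ¬ l ∣ M * 3) (hgood : W.IsGoodPrimeFor l)
    (hne : (W.apOfModel l : ZMod 3) ≠ ((1 + l : ℕ) : ZMod 3)) :
    ∃ h : Fin 2 → (x0Descent hpM hA L.le_inertia L.U).F0,
      Nonempty (Move.RootData (x0Descent hpM hA L.le_inertia L.U) 3 h f) := by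
  haveI := charP_residueField A h3.out hA
  haveI := (x0Reduction hpM A hA).isAlgClosed_residue
  have hAr := Mazur.rankLeOne_of_liesOverPrime h3.out hA
  obtain ⟨n, φ, hval⟩ := Move.exists_hasVal (D := x0Descent hpM hA L.le_inertia L.U) hAr f.2 hf0
  obtain ⟨hn, hfar⟩ := dvd_val_and_ord_of_not_thick hpM hA L hf0 hdvd
    (exists_lead_pow W hpM f.2 hf0 hlead hrel hl hl2 hlN hgood hne) hval
  exact Move.exists_rootData hAr (x0NodePairs hpM A hA) f hval hf0 hdvd
    (spannedByFixed hpM hA L.le_inertia L.U f) hn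
    (exists_pow_of_hasVal W hpM hA L.le_inertia L.U hnot hrel hval
      (dvd_ord_of_eigen W hpM hA L.le_inertia L.U hrel hval hfar hl hlN hgood hne))

include hpM hA L in
/-- A separating element acts on the eigen classes by its cyclotomic value. -/
theorem galois_smul_eq_cyclotomic_three (hnot : ¬ W.IsResiduallyModularOfLevel 3 M)
    (E : EigenSpace W 3 (M * 3))
    {l : ℕ} (hl : l.Prime) (hl2 : l ≠ 2) (hlN : ¬ l ∣ M * 3) (hgood : W.IsGoodPrimeFor l)
    (hne : (W.apOfModel l : ZMod 3) ≠ ((1 + l : ℕ) : ZMod 3))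
    {z : Γℚ} (hz : z ∈ A.inertiaSubgroupIn ℚ) {x : JZero (M * 3)} (hx : x ∈ E.carrier) :
    ∃ a : ℕ, (∀ ζ : ℚbar, ζ ^ 3 = 1 → z ζ = ζ ^ a) ∧ z • x = a • x := by
  obtain ⟨i₀, a, c, u0, w, s, hu0, hpe, hi₀, hth, -, hs, hπ, hzζ, hac, hc⟩ :=
    exists_twist_data hpM hA L hz
  refine ⟨a, hzζ, ?_⟩
  have hfix : ∀ σ ∈ L.H, σ • x = x := fun σ hσ => E.rep_ker σ (L.rep_eq_one σ hσ) x hx
  obtain ⟨Dv, f, hmk, hf, hf0, hdiv, hlead⟩ := exists_fixed_rep x (E.torsion x hx) hfix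
  have hdvd : ∀ v : Place ℚbar (X0F M 3), (3 : ℤ) ∣ v.ord f := fun v => ⟨_, (hdiv v).symm⟩
  have hrel : HeckeRel W L.H f := fun k _ hk hkN hkgood =>
    exists_hecke_rel hf hf0 hdiv hlead hk (W.apOfModel k) (by
      rw [hmk]
      exact E.eigen x hx k hk hkN (fun h => hkN (h ▸ dvd_mul_left 3 M)) hkgood)
  obtain ⟨h, ⟨R⟩⟩ := exists_rootData_three hpM hA L hnot (f := ⟨f, hf⟩) hf0 hdvd hlead hrel hl hl2
    hlN hgood hne
  have hdvd₂ : ∀ v : Place ℚbar (X0F M 3), (3 : ℤ) ∣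
      v.ord ((s.σ ⟨f, hf⟩ : (x0Descent hpM hA L.le_inertia L.U).F0) : X0F M 3) := fun v => by
    rw [hs]; exact dvd_ord_galois_smul z hdvd v
  haveI := charP_residueField A h3.out hA
  let D := x0Descent hpM hA L.le_inertia L.U
  let f₀ : D.F0 := ⟨f, hf⟩
  have hspan : Move.SpannedByFixed D 3 f₀ := spannedByFixed hpM hA L.le_inertia L.U f₀
  have hspan₂ : Move.SpannedByFixed D 3 (s.σ f₀ * f₀ ^ c) :=
    spannedByFixed hpM hA L.le_inertia L.U (s.σ f₀ * f₀ ^ c)
  have hex : Move.RootExact D 3 L.U.e f₀ :=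
    rootExact_x0 W hpM hA L.le_inertia L.U hnot (f := f₀) hrel hpe
  obtain ⟨G, hG⟩ := Move.exists_pow_eq_twist_of_descent (D := D) (p := 3) (f := f₀)
    (P := x0NodePairs hpM A hA) (by decide : Odd 3)
    (Mazur.rankLeOne_of_liesOverPrime h3.out hA) (x_mem_F0 hpM hA L.le_inertia L.U)
    (x0_connected hpM A hA) hu0 hpe hi₀ hth R hdvd s hπ hc hdvd₂ hspan hspan₂ hex
  rw [Subfield.coe_mul, SubmonoidClass.coe_pow, hs] at hG
  have h0 := galois_smul_add_nsmul_eq_zero hf0 hdiv z c hG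
  rw [hmk] at h0
  obtain ⟨k, hk⟩ := hac
  have h1 : (a + c) • x = 0 := by rw [hk, Nat.mul_comm 3 k, mul_smul, E.torsion x hx, smul_zero]
  rw [add_smul] at h1
  exact add_right_cancel (h0.trans h1.symm)

include hpM hA L in
/-- **Mazur's principle at `3`.** -/
theorem isResiduallyModularOfLevel_of_localData_three (hΔ : W.Δ ≠ 0)
    (hirr : W.ModRepIsIrreducible 3) (hmod : W.IsResiduallyModularOfLevel 3 (M * 3)) :
    W.IsResiduallyModularOfLevel 3 M := by
  classical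
  by_contra hnot
  obtain ⟨E⟩ := exists_eigenSpace W hΔ h3.out (by omega) hirr hmod
  haveI := charP_residueField A h3.out hA
  obtain ⟨l, hl, hlS, hlp, hgood, hne⟩ := exists_apOfModel_ne W hΔ h3.out (by omega) hirr
    (insert 2 (M * 3).primeFactors)
  rw [Finset.mem_insert, not_or] at hlS
  have hlN : ¬ l ∣ M * 3 := fun h => hlS.2
    (Nat.mem_primeFactors.2 ⟨hl, h, mul_ne_zero (NeZero.ne M) three_ne_zero⟩)
  obtain ⟨z, hz, hsep⟩ := L.separating
  obtain ⟨i₀, a, c, u0, w, s, -, -, -, -, -, -, -, hzζ, -, -⟩ := exists_twist_data hpM hA L hz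
  obtain ⟨x, hx, hxne⟩ := E.not_scalar z hsep a hzζ
  obtain ⟨a', hzζ', hax⟩ := galois_smul_eq_cyclotomic_three hpM hA L hnot E hl hlS.1 hlN hgood hne
    hz hx
  refine hxne (hax.trans ?_)
  obtain ⟨ζ, hζ⟩ := HasEnoughRootsOfUnity.exists_primitiveRoot (M := ℚbar) (n := 3)
  have e : a % 3 = a' % 3 := hζ.pow_inj (Nat.mod_lt _ three_pos) (Nat.mod_lt _ three_pos) (by
    rw [← pow_eq_pow_mod a hζ.pow_eq_one, ← pow_eq_pow_mod a' hζ.pow_eq_one,
      ← hzζ ζ hζ.pow_eq_one, ← hzζ' ζ hζ.pow_eq_one])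
  have hmod_p : ∀ n : ℕ, n • x = (n % 3) • x := fun n => by
    have h := E.torsion x hx
    calc n • x = (n % 3 + n / 3 * 3) • x := by rw [Nat.mod_add_div']
      _ = _ := by rw [add_smul, mul_smul, h, smul_zero, add_zero]
  rw [hmod_p a', hmod_p a, e]

end Fermat.Agent.MazurPrinciple2

end
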