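/-
Mazur's principle at an odd prime `p` for an arbitrary integral model: the statements of S39 and
S40.
-/
import Fermat.Agent.MazurPrinciple2.Main
import Fermat.Agent.MazurPrinciple.CriterionSS
import Fermat.Prelude.Def_WeierstrassCurve_PeuRamifiee

set_option autoImplicit false

noncomputable section

namespace Fermat.Agent.MazurPrinciple2

open MazurPrinciple

variable {W : WeierstrassCurve ℤ} {p : ℕ}

/-- An odd prime `p` can be removed from a level it divides exactly, given the local data at `p`. -/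
theorem isResiduallyModularOfLevel_div_of_localData [hp : Fact p.Prime] (hΔ : W.Δ ≠ 0)
    (hp2 : p ≠ 2) (hirr : W.ModRepIsIrreducible p) {M : ℕ} (hM : 0 < M) (hpM : p ∣ M)
    (hp2M : ¬ p ^ 2 ∣ M) (hmod : W.IsResiduallyModularOfLevel p M)
    {A : ValuationSubring (AlgebraicClosure ℚ)} (hA : A.LiesOverPrime p) (L : LocalData W p A) :
    W.IsResiduallyModularOfLevel p (M / p) := by
  obtain ⟨N, rfl⟩ := hpM
  rw [Nat.mul_div_cancel_left N hp.out.pos]
  have : NeZero N := ⟨fun h => by simp [h] at hM⟩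
  have hpN : ¬ p ∣ N := fun h => hp2M (sq p ▸ mul_dvd_mul_left p h)
  by_cases hp5 : 5 ≤ p
  · exact isResiduallyModularOfLevel_of_localData hΔ hp5 hpN hirr (mul_comm p N ▸ hmod) hA L
  have h2 := hp.out.two_le
  obtain rfl : p = 3 := by
    have h4 : p ≠ 4 := fun h => by
      have := h ▸ hp.out
      norm_num at this
    omega
  exact isResiduallyModularOfLevel_of_localData_three hpN hA L hΔ hirr (mul_comm 3 N ▸ hmod)

/-- The statement of S40. -/
theorem isResiduallyModularOfLevel_div_of_good' (hΔ : W.Δ ≠ 0) (hp : p.Prime) (hp2 : p ≠ 2)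
    (hgood : W.IsGoodPrimeFor p) (hirr : W.ModRepIsIrreducible p) {M : ℕ} (hM : 0 < M)
    (hpM : p ∣ M) (hp2M : ¬ p ^ 2 ∣ M) (hmod : W.IsResiduallyModularOfLevel p M) :
    W.IsResiduallyModularOfLevel p (M / p) := by
  have : Fact p.Prime := ⟨hp⟩
  obtain ⟨A, hA⟩ := Galois.exists_liesOverPrime hp
  obtain ⟨L⟩ := nonempty_localData_good (W := W) hp2 hgood hA
  exact isResiduallyModularOfLevel_div_of_localData hΔ hp2 hirr hM hpM hp2M hmod hA L

/-- The statement of S39. -/
theorem isResiduallyModularOfLevel_div_of_peuRamifiee' (hΔ : W.Δ ≠ 0) (hp : p.Prime)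
    (hp2 : p ≠ 2) (hsemi : (p : ℤ) ∣ W.Δ → ¬ (p : ℤ) ∣ W.c₄) (hirr : W.ModRepIsIrreducible p)
    (hfin : (W.map (Int.castRingHom ℚ)).IsPeuRamifieeAt p p) {M : ℕ} (hM : 0 < M)
    (hpM : p ∣ M) (hp2M : ¬ p ^ 2 ∣ M) (hmod : W.IsResiduallyModularOfLevel p M) :
    W.IsResiduallyModularOfLevel p (M / p) := by
  by_cases hd : (p : ℤ) ∣ W.Δ
  swap
  · exact isResiduallyModularOfLevel_div_of_good' hΔ hp hp2 hd hirr hM hpM hp2M hmod
  have : Fact p.Prime := ⟨hp⟩
  obtain ⟨A, hA⟩ := Galois.exists_liesOverPrime hp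
  have hpeu : p ∣ padicValInt p W.Δ := by
    have h : (p : ℤ) ∣ padicValRat p (W.map (Int.castRingHom ℚ)).Δ := hfin
    rw [WeierstrassCurve.map_Δ, eq_intCast, padicValRat.of_int] at h
    exact_mod_cast h
  obtain ⟨L⟩ := nonempty_localData_mult (W := W) (p := p) (A := A) hp2
    ⟨hp, hΔ, hd, hsemi hd, hA⟩ hpeu
  exact isResiduallyModularOfLevel_div_of_localData hΔ hp2 hirr hM hpM hp2M hmod hA L

end Fermat.Agent.MazurPrinciple2

end
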